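import Mathlib

set_option autoImplicit false

/-!
# GB / Patch / Basic : abstract tools for the patching argument

* `exists_thread`            : König's lemma for a tower of nonempty finite types.
* `exists_cauchy_subseq`     : a sequence whose truncations take finitely many values has a
                               subsequence whose truncations are coherent.
* `finite_setOf_factors`     : functions into a finite type that factor through a finite quotient
                               form a finite set.
* `exists_limit`             : limits of sequences which are Cauchy for an adic topology.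
* `eq_of_forall_sub_mem_pow` : separatedness in ring form.
* `smul_eq_zero_of_mem_pow_card` : a finite module over a local ring with at most `n` elements is
                               killed by the `n`-th power of the maximal ideal.
-/

namespace Fermat.Agent.GB.Patch

open CategoryTheory

/-- König's lemma: a tower of nonempty finite types has a coherent thread. -/
theorem exists_thread (X : ℕ → Type) [∀ k, Finite (X k)] [∀ k, Nonempty (X k)]
    (p : ∀ k, X (k + 1) → X k) :
    ∃ a : ∀ k, X k, ∀ k, p k (a (k + 1)) = a k := by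
  let F : ℕᵒᵖ ⥤ Type := Functor.ofOpSequence (X := X) (fun n => TypeCat.ofHom (p n))
  have : ∀ j : ℕᵒᵖ, Finite (F.obj j) := fun j => inferInstanceAs (Finite (X j.unop))
  have : ∀ j : ℕᵒᵖ, Nonempty (F.obj j) := fun j => inferInstanceAs (Nonempty (X j.unop))
  obtain ⟨u, hu⟩ := nonempty_sections_of_finite_inverse_system F
  refine ⟨fun k => u ⟨k⟩, fun k => ?_⟩
  have := hu (homOfLE (Nat.le_add_right k 1)).op
  rw [Functor.ofOpSequence_map_homOfLE_succ] at this
  exact this

/-- Compactness in sequence form.  `q k` is the truncation to stage `k`, `red k` the transition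
map.  If for every `k` the truncations `q k (x n)`, `n ≥ k`, take only finitely many values, then
there is a subsequence `x (n k)` with `n k ≥ k` such that `x (n (k+1))` and `x (n k)` have the same
truncation at stage `k`. -/
theorem exists_cauchy_subseq {𝒳 : Type} (Y : ℕ → Type) (q : ∀ k, 𝒳 → Y k)
    (red : ∀ k, Y (k + 1) → Y k) (hred : ∀ k x, red k (q (k + 1) x) = q k x) (x : ℕ → 𝒳)
    (hfin : ∀ k, (Set.range fun n : {n : ℕ // k ≤ n} => q k (x n)).Finite) :
    ∃ n : ℕ → ℕ, (∀ k, k ≤ n k) ∧ ∀ k, q k (x (n (k + 1))) = q k (x (n k)) := by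
  let X : ℕ → Type := fun k => ↥(Set.range fun n : {n : ℕ // k ≤ n} => q k (x n))
  have hX1 : ∀ k, Finite (X k) := fun k => (hfin k).to_subtype
  have hX2 : ∀ k, Nonempty (X k) := fun k => ⟨⟨q k (x k), ⟨⟨k, le_rfl⟩, rfl⟩⟩⟩
  let p : ∀ k, X (k + 1) → X k := fun k y => ⟨red k y.1, by
    obtain ⟨⟨n, hn⟩, hy⟩ := y.2
    refine ⟨⟨n, (Nat.le_succ k).trans hn⟩, ?_⟩
    simp only at hy ⊢
    rw [← hy, hred]⟩
  obtain ⟨a, ha⟩ := exists_thread X p
  have hch : ∀ k, ∃ n : ℕ, k ≤ n ∧ q k (x n) = (a k).1 := by
    intro k
    obtain ⟨⟨n, hn⟩, hy⟩ := (a k).2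
    exact ⟨n, hn, hy⟩
  choose n hn1 hn2 using hch
  refine ⟨n, hn1, fun k => ?_⟩
  rw [hn2 k, ← ha k]
  show q k (x (n (k + 1))) = red k (a (k + 1)).1
  rw [← hn2 (k + 1), hred]

/-- Functions into a finite type which are constant on the classes of a relation with finitely
many classes form a finite set. -/
theorem finite_setOf_factors {α β : Type*} [Finite β] (s : Setoid α) [Finite (Quotient s)] :
    {g : α → β | ∀ a a', s.r a a' → g a = g a'}.Finite := by
  let Φ : {g : α → β | ∀ a a', s.r a a' → g a = g a'} → (Quotient s → β) :=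
    fun g c => g.1 c.out
  have hΦ : Function.Injective Φ := by
    intro g g' h
    apply Subtype.ext
    funext a
    have h1 := congrFun h (Quotient.mk s a)
    have h2 : s.r (Quotient.mk s a).out a := Quotient.exact (Quotient.out_eq _)
    simp only [Φ] at h1
    rw [← g.2 _ _ h2, ← g'.2 _ _ h2, h1]
  have : Finite {g : α → β | ∀ a a', s.r a a' → g a = g a'} := Finite.of_injective Φ hΦ
  exact Set.toFinite _

section Adic

variable {A : Type*} [CommRing A] (I : Ideal A)

/-- Separatedness, ring form. -/
theorem eq_of_forall_sub_mem_pow [IsHausdorff I A] {a b : A} (h : ∀ k, a - b ∈ I ^ k) : a = b := by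
  rw [← sub_eq_zero]
  apply IsHausdorff.haus (inferInstance : IsHausdorff I A)
  intro n
  rw [smul_eq_mul, Ideal.mul_top, SModEq.zero]
  exact h n

/-- Separatedness, ring form, along an unbounded sequence of exponents. -/
theorem eq_of_forall_sub_mem_pow' [IsHausdorff I A] {a b : A} (e : ℕ → ℕ) (he : ∀ k, k ≤ e k)
    (h : ∀ k, a - b ∈ I ^ (e k)) : a = b :=
  eq_of_forall_sub_mem_pow I fun k => Ideal.pow_le_pow_right (he k) (h k)

/-- Limits of Cauchy sequences, with a modulus `e`. -/
theorem exists_limit [IsPrecomplete I A] (e : ℕ → ℕ) (he : ∀ k, k ≤ e k) (hmono : Monotone e)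
    (u : ℕ → A) (hu : ∀ k, u (k + 1) - u k ∈ I ^ (e k)) :
    ∃ a : A, ∀ k, a - u k ∈ I ^ (e k) := by
  have hc : ∀ m n, m ≤ n → u n - u m ∈ I ^ (e m) := by
    intro m n hmn
    induction n, hmn using Nat.le_induction with
    | base => simp
    | succ n hmn ih =>
      have h1 : u (n + 1) - u m = (u (n + 1) - u n) + (u n - u m) := by ring
      rw [h1]
      exact add_mem (Ideal.pow_le_pow_right (hmono hmn) (hu n)) ih
  obtain ⟨L, hL⟩ := IsPrecomplete.prec (inferInstance : IsPrecomplete I A) (f := u) (by
    intro m n hmn
    rw [smul_eq_mul, Ideal.mul_top]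
    refine (SModEq.sub_mem.mpr ?_).symm
    exact Ideal.pow_le_pow_right (he m) (hc m n hmn))
  refine ⟨L, fun k => ?_⟩
  have h1 : L - u k = (L - u (e k)) + (u (e k) - u k) := by ring
  rw [h1]
  refine add_mem ?_ (hc k (e k) (he k))
  have h2 := hL (e k)
  rw [smul_eq_mul, Ideal.mul_top] at h2
  exact SModEq.sub_mem.mp h2.symm

/-- Pointwise limits of algebra homs are algebra homs. -/
theorem exists_algHom_limit {𝒪 B C : Type*} [CommRing 𝒪] [CommRing B] [CommRing C]
    [Algebra 𝒪 B] [Algebra 𝒪 C] (I : Ideal C) [IsAdicComplete I C] (e : ℕ → ℕ)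
    (he : ∀ k, k ≤ e k) (hmono : Monotone e) (χ : ℕ → B →ₐ[𝒪] C)
    (hχ : ∀ k b, χ (k + 1) b - χ k b ∈ I ^ (e k)) :
    ∃ χ' : B →ₐ[𝒪] C, ∀ k b, χ' b - χ k b ∈ I ^ (e k) := by
  have hex : ∀ b, ∃ a : C, ∀ k, a - χ k b ∈ I ^ (e k) := fun b =>
    exists_limit I e he hmono (fun k => χ k b) (fun k => hχ k b)
  choose g hg using hex
  have hsep : ∀ {a b : C}, (∀ k, a - b ∈ I ^ (e k)) → a = b := fun h =>
    eq_of_forall_sub_mem_pow' I e he h
  refine ⟨{ toFun := g, map_one' := ?_, map_mul' := ?_, map_zero' := ?_, map_add' := ?_,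
            commutes' := ?_ }, fun k b => hg b k⟩
  · refine hsep fun k => ?_
    have := hg 1 k
    rwa [map_one] at this
  · intro x y
    refine hsep fun k => ?_
    have h1 : g (x * y) - g x * g y = (g (x * y) - χ k (x * y)) -
        ((g x - χ k x) * g y + χ k x * (g y - χ k y)) := by
      rw [map_mul]; ring
    rw [h1]
    exact sub_mem (hg _ k) (add_mem (Ideal.mul_mem_right _ _ (hg x k))
      (Ideal.mul_mem_left _ _ (hg y k)))
  · refine hsep fun k => ?_
    have := hg 0 k
    rwa [map_zero] at this
  · intro x y
    refine hsep fun k => ?_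
    have h1 : g (x + y) - (g x + g y) = (g (x + y) - χ k (x + y)) -
        ((g x - χ k x) + (g y - χ k y)) := by
      rw [map_add]; ring
    rw [h1]
    exact sub_mem (hg _ k) (add_mem (hg x k) (hg y k))
  · intro c
    refine hsep fun k => ?_
    have := hg (algebraMap 𝒪 B c) k
    rwa [AlgHom.commutes] at this

end Adic

section FinLen

open IsLocalRing

universe v

/-- A finite module with at most `n` elements over a local ring is killed by the `n`-th power of
the maximal ideal. -/
theorem smul_eq_zero_of_mem_pow_card {A : Type*} [CommRing A] [IsLocalRing A] :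
    ∀ (n : ℕ) (W : Type v) [AddCommGroup W] [Module A W] [Finite W], Nat.card W ≤ n →
      ∀ a ∈ maximalIdeal A ^ n, ∀ w : W, a • w = 0 := by
  intro n
  induction n with
  | zero =>
    intro W _ _ _ hcard
    have : 0 < Nat.card W := Nat.card_pos
    omega
  | succ n ih =>
    intro W _ _ _ hcard a ha w
    by_cases hsub : Subsingleton W
    · exact Subsingleton.elim _ _
    · rw [not_subsingleton_iff_nontrivial] at hsub
      let W' : Submodule A W := maximalIdeal A • (⊤ : Submodule A W)
      have hW' : W' ≠ ⊤ := by
        intro htop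
        have hfg : (⊤ : Submodule A W).FG := Module.Finite.fg_top
        have h1 : (⊤ : Submodule A W) = ⊥ :=
          Submodule.eq_bot_of_le_smul_of_le_jacobson_bot (maximalIdeal A) ⊤ hfg
            (by rw [show maximalIdeal A • (⊤ : Submodule A W) = ⊤ from htop])
            (IsLocalRing.maximalIdeal_le_jacobson ⊥)
        have h2 : Subsingleton W := by
          rw [← Submodule.subsingleton_iff A (M := W)]
          exact subsingleton_of_bot_eq_top h1.symm
        exact not_nontrivial W hsub
      obtain ⟨w0, hw0⟩ : ∃ w0 : W, w0 ∉ W' := by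
        by_contra hcon
        exact hW' (_root_.eq_top_iff.mpr fun x _ => by
          by_contra hx
          exact hcon ⟨x, hx⟩)
      have hlt : Nat.card W' < Nat.card W :=
        Finite.card_subtype_lt (p := fun x => x ∈ W') hw0
      have hIH := ih W' (by omega)
      rw [pow_succ] at ha
      refine Submodule.mul_induction_on ha (fun b hb c hc => ?_) (fun x y hx hy => ?_)
      · have hcw : c • w ∈ W' := Submodule.smul_mem_smul hc Submodule.mem_top
        have h3 := hIH b hb ⟨c • w, hcw⟩
        have h4 : b • (c • w) = 0 := by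
          have := congrArg Subtype.val h3
          simpa using this
        rw [mul_smul, h4]
      · rw [add_smul, hx, hy, add_zero]

end FinLen

end Fermat.Agent.GB.Patch
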