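import Fermat.Agent.S53.PSComplete
import Fermat.Agent.S53.PSEval

set_option autoImplicit false
set_option linter.unusedSectionVars false

/-!
# GB / Patch / PS : facts on `𝒪⟦X₁,…,X_r⟧` used by the patching argument

* `sub_C_constantCoeff_mem_span_X` : `f - C f(0) ∈ (X₁,…,X_r)`.
* `algHom_mem_maximalIdeal`, `algHom_mem_pow` : `𝒪`-algebra homs out of the power series ring
  into a local `𝒪`-algebra with residue field `k` are local, hence continuous.
* `algHom_comp_eq_algebraMap_constantCoeff` : an algebra hom killing the variables is the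
  augmentation.
* `constantCoeff_mem_pow`, `C_mem_pow`, `algebraMap_mem_pow`.
* `one_add_X_pow_sub_one_mem` : `(1+X_j)^(ℓ^n) - 1 ∈ 𝔪^(n+1)` when `ℓ ∈ 𝔪_𝒪`.
-/

namespace Fermat.Agent.GB.Patch

open IsLocalRing MvPowerSeries

section

variable {𝒪 : Type} [CommRing 𝒪] [IsLocalRing 𝒪] {r : ℕ}

/-- `f - C f(0)` lies in the ideal generated by the variables. -/
theorem sub_C_constantCoeff_mem_span_X (f : MvPowerSeries (Fin r) 𝒪) :
    f - C (constantCoeff f) ∈
      Ideal.span (Set.range (X : Fin r → MvPowerSeries (Fin r) 𝒪)) := by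
  classical
  have h := Fermat.Agent.S53.sub_truncTotal_mem_psVars_pow (𝒪 := 𝒪) (ι := Fin r) 1 f
  rw [pow_one] at h
  have hc : ((truncTotal 1 f : MvPolynomial (Fin r) 𝒪) : MvPowerSeries (Fin r) 𝒪) =
      C (constantCoeff f) := by
    ext d
    rw [MvPolynomial.coeff_coe, coeff_truncTotal_eq_ite, coeff_C]
    by_cases hd : d = 0
    · subst hd
      simp
    · have h' : ¬ d.degree < 1 := by
        rw [Nat.lt_one_iff, Finsupp.degree_eq_zero_iff]
        exact hd
      rw [if_neg h', if_neg hd]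
  rw [hc] at h
  exact h

theorem C_mem_maximalIdeal {a : 𝒪} (ha : a ∈ maximalIdeal 𝒪) :
    (C a : MvPowerSeries (Fin r) 𝒪) ∈ maximalIdeal (MvPowerSeries (Fin r) 𝒪) := by
  rw [Fermat.Agent.S53.PSC.mem_maximalIdeal_iff, constantCoeff_C]
  exact ha

theorem C_mem_pow {a : 𝒪} {k : ℕ} (ha : a ∈ maximalIdeal 𝒪 ^ k) :
    (C a : MvPowerSeries (Fin r) 𝒪) ∈ maximalIdeal (MvPowerSeries (Fin r) 𝒪) ^ k := by
  have h1 : (maximalIdeal 𝒪 ^ k).map (C (σ := Fin r) (R := 𝒪)) ≤
      maximalIdeal (MvPowerSeries (Fin r) 𝒪) ^ k := by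
    rw [Ideal.map_pow]
    exact Ideal.pow_right_mono (Fermat.Agent.S53.PSC.map_C_le 𝒪 (Fin r)) k
  exact h1 (Ideal.mem_map_of_mem _ ha)

theorem constantCoeff_mem_pow {f : MvPowerSeries (Fin r) 𝒪} {k : ℕ}
    (hf : f ∈ maximalIdeal (MvPowerSeries (Fin r) 𝒪) ^ k) :
    constantCoeff f ∈ maximalIdeal 𝒪 ^ k := by
  have h := (Fermat.Agent.S53.PSC.mem_maximalIdeal_pow_iff 𝒪 (Fin r) k f).mp hf 0
  simpa using h

section Target

variable {A : Type} [CommRing A] [IsLocalRing A] [Algebra 𝒪 A] [IsLocalHom (algebraMap 𝒪 A)]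

theorem algebraMap_mem_maximalIdeal {a : 𝒪} (ha : a ∈ maximalIdeal 𝒪) :
    algebraMap 𝒪 A a ∈ maximalIdeal A :=
  map_nonunit (algebraMap 𝒪 A) a ha

theorem algebraMap_mem_pow {a : 𝒪} {k : ℕ} (ha : a ∈ maximalIdeal 𝒪 ^ k) :
    algebraMap 𝒪 A a ∈ maximalIdeal A ^ k := by
  have h1 : (maximalIdeal 𝒪 ^ k).map (algebraMap 𝒪 A) ≤ maximalIdeal A ^ k := by
    rw [Ideal.map_pow]
    refine Ideal.pow_right_mono ?_ k
    rw [Ideal.map_le_iff_le_comap]
    intro a ha
    exact algebraMap_mem_maximalIdeal ha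
  exact h1 (Ideal.mem_map_of_mem _ ha)

/-- An `𝒪`-algebra hom from the power series ring to a local `𝒪`-algebra with the same residue
field is local. -/
theorem algHom_mem_maximalIdeal
    (hres : Function.Surjective (residue A ∘ algebraMap 𝒪 A))
    (φ : MvPowerSeries (Fin r) 𝒪 →ₐ[𝒪] A) {f : MvPowerSeries (Fin r) 𝒪}
    (hf : f ∈ maximalIdeal (MvPowerSeries (Fin r) 𝒪)) : φ f ∈ maximalIdeal A := by
  by_contra hcon
  have hu : IsUnit (φ f) := by
    by_contra h
    exact hcon h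
  obtain ⟨c, hc⟩ := hres (residue A (φ f))
  rw [Function.comp_apply] at hc
  have hcu : IsUnit c := by
    by_contra hc'
    have h1 : algebraMap 𝒪 A c ∈ maximalIdeal A := algebraMap_mem_maximalIdeal hc'
    rw [← residue_eq_zero_iff, hc, residue_eq_zero_iff] at h1
    exact hcon h1
  have hf0 : constantCoeff f ∈ maximalIdeal 𝒪 :=
    (Fermat.Agent.S53.PSC.mem_maximalIdeal_iff 𝒪 (Fin r) f).mp hf
  have hg : IsUnit (f - C c) := by
    rw [MvPowerSeries.isUnit_iff_constantCoeff, map_sub, constantCoeff_C]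
    by_contra hnu
    have h2 : constantCoeff f - c ∈ maximalIdeal 𝒪 := hnu
    have h3 : c ∈ maximalIdeal 𝒪 := by
      have := (maximalIdeal 𝒪).sub_mem hf0 h2
      simpa using this
    exact h3 hcu
  have hφg : IsUnit (φ (f - C c)) := hg.map φ
  have hC : φ (C c) = algebraMap 𝒪 A c := by
    have := φ.commutes c
    rwa [MvPowerSeries.algebraMap_apply, Algebra.algebraMap_self, RingHom.id_apply] at this
  have h4 : φ (f - C c) ∈ maximalIdeal A := by
    rw [← residue_eq_zero_iff, map_sub, map_sub, hC, hc, sub_self]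
  exact h4 hφg

theorem algHom_mem_pow
    (hres : Function.Surjective (residue A ∘ algebraMap 𝒪 A))
    (φ : MvPowerSeries (Fin r) 𝒪 →ₐ[𝒪] A) {f : MvPowerSeries (Fin r) 𝒪} {k : ℕ}
    (hf : f ∈ maximalIdeal (MvPowerSeries (Fin r) 𝒪) ^ k) : φ f ∈ maximalIdeal A ^ k := by
  have h1 : (maximalIdeal (MvPowerSeries (Fin r) 𝒪) ^ k).map
      (φ : MvPowerSeries (Fin r) 𝒪 →+* A) ≤ maximalIdeal A ^ k := by
    rw [Ideal.map_pow]
    refine Ideal.pow_right_mono ?_ k
    rw [Ideal.map_le_iff_le_comap]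
    intro g hg
    exact algHom_mem_maximalIdeal hres φ hg
  exact h1 (Ideal.mem_map_of_mem (φ : MvPowerSeries (Fin r) 𝒪 →+* A) hf)

end Target

/-- An algebra hom which kills the variables is the augmentation. -/
theorem algHom_eq_algebraMap_constantCoeff {B : Type} [CommRing B] [Algebra 𝒪 B]
    (χ : MvPowerSeries (Fin r) 𝒪 →ₐ[𝒪] B) (h : ∀ i, χ (X i) = 0)
    (c : MvPowerSeries (Fin r) 𝒪) : χ c = algebraMap 𝒪 B (constantCoeff c) := by
  have h1 : χ (c - C (constantCoeff c)) = 0 := by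
    have hle : Ideal.span (Set.range (X : Fin r → MvPowerSeries (Fin r) 𝒪)) ≤
        RingHom.ker (χ : MvPowerSeries (Fin r) 𝒪 →+* B) := by
      rw [Ideal.span_le]
      rintro _ ⟨i, rfl⟩
      exact h i
    exact hle (sub_C_constantCoeff_mem_span_X c)
  have hC : χ (C (constantCoeff c)) = algebraMap 𝒪 B (constantCoeff c) := by
    have := χ.commutes (constantCoeff c)
    rwa [MvPowerSeries.algebraMap_apply, Algebra.algebraMap_self, RingHom.id_apply] at this
  rw [map_sub, sub_eq_zero] at h1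
  rw [h1, hC]

/-- The local hom instance and the surjectivity on residue fields for the power series ring
itself. -/
theorem isLocalHom_algebraMap_ps :
    IsLocalHom (algebraMap 𝒪 (MvPowerSeries (Fin r) 𝒪)) := by
  refine ⟨fun a ha => ?_⟩
  have h := MvPowerSeries.isUnit_constantCoeff _ ha
  rwa [MvPowerSeries.algebraMap_apply, Algebra.algebraMap_self, RingHom.id_apply,
    MvPowerSeries.constantCoeff_C] at h

theorem residue_algebraMap_ps_surjective :
    Function.Surjective (residue (MvPowerSeries (Fin r) 𝒪) ∘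
      algebraMap 𝒪 (MvPowerSeries (Fin r) 𝒪)) := by
  intro b
  obtain ⟨f, rfl⟩ := residue_surjective b
  refine ⟨constantCoeff f, ?_⟩
  rw [Function.comp_apply, eq_comm, ← sub_eq_zero, ← map_sub, residue_eq_zero_iff,
    Fermat.Agent.S53.PSC.mem_maximalIdeal_iff, map_sub, MvPowerSeries.algebraMap_apply,
    Algebra.algebraMap_self, RingHom.id_apply, MvPowerSeries.constantCoeff_C, sub_self]
  exact zero_mem _

/-- Endomorphisms of the power series ring are continuous. -/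
theorem algEnd_mem_pow (φ : MvPowerSeries (Fin r) 𝒪 →ₐ[𝒪] MvPowerSeries (Fin r) 𝒪)
    {f : MvPowerSeries (Fin r) 𝒪} {k : ℕ}
    (hf : f ∈ maximalIdeal (MvPowerSeries (Fin r) 𝒪) ^ k) :
    φ f ∈ maximalIdeal (MvPowerSeries (Fin r) 𝒪) ^ k := by
  have := isLocalHom_algebraMap_ps (𝒪 := 𝒪) (r := r)
  exact algHom_mem_pow residue_algebraMap_ps_surjective φ hf

/-- `(1+X_j)^(ℓ^n) - 1 ∈ 𝔪^(n+1)` as soon as `ℓ ∈ 𝔪_𝒪`. -/
theorem one_add_X_pow_sub_one_mem {ℓ : ℕ} (hℓ : (ℓ : 𝒪) ∈ maximalIdeal 𝒪) (j : Fin r) (n : ℕ) :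
    ((1 + X j) ^ (ℓ ^ n) - 1 : MvPowerSeries (Fin r) 𝒪) ∈
      maximalIdeal (MvPowerSeries (Fin r) 𝒪) ^ (n + 1) := by
  induction n with
  | zero =>
    simp only [pow_zero, pow_one, zero_add, add_sub_cancel_left]
    exact Fermat.Agent.S53.PSC.X_mem 𝒪 (Fin r) j
  | succ n ih =>
    set u : MvPowerSeries (Fin r) 𝒪 := (1 + X j) ^ (ℓ ^ n) - 1 with hu
    have hu1 : (1 + X j : MvPowerSeries (Fin r) 𝒪) ^ (ℓ ^ n) = 1 + u := by rw [hu]; ring
    have hum : u ∈ maximalIdeal (MvPowerSeries (Fin r) 𝒪) :=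
      Ideal.pow_le_self (Nat.succ_ne_zero n) ih
    -- `(1+u)^ℓ - 1 = u * Σ_{i<ℓ} (1+u)^i`
    have h1 : ((1 + X j) ^ (ℓ ^ (n + 1)) - 1 : MvPowerSeries (Fin r) 𝒪) =
        u * ∑ i ∈ Finset.range ℓ, (1 + u) ^ i := by
      rw [pow_succ, pow_mul, hu1]
      have := mul_geom_sum (1 + u) ℓ
      rw [add_sub_cancel_left] at this
      rw [this]
    have h2 : (∑ i ∈ Finset.range ℓ, (1 + u) ^ i : MvPowerSeries (Fin r) 𝒪) ∈
        maximalIdeal (MvPowerSeries (Fin r) 𝒪) := by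
      have h3 : (∑ i ∈ Finset.range ℓ, (1 + u) ^ i : MvPowerSeries (Fin r) 𝒪) =
          (ℓ : MvPowerSeries (Fin r) 𝒪) + ∑ i ∈ Finset.range ℓ, ((1 + u) ^ i - 1) := by
        rw [Finset.sum_sub_distrib]
        simp
      rw [h3]
      refine add_mem ?_ (Ideal.sum_mem _ fun i _ => ?_)
      · have : (ℓ : MvPowerSeries (Fin r) 𝒪) = C (ℓ : 𝒪) := by simp
        rw [this]
        exact C_mem_maximalIdeal hℓ
      · have := mul_geom_sum (1 + u) i
        rw [add_sub_cancel_left] at this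
        rw [← this]
        exact Ideal.mul_mem_right _ _ hum
    rw [h1, pow_succ (maximalIdeal (MvPowerSeries (Fin r) 𝒪)) (n + 1)]
    exact Ideal.mul_mem_mul ih h2

end

end Fermat.Agent.GB.Patch
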