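import Fermat.Prelude.Def_Algebra_PatchingDatum
import Fermat.Agent.GB.Patch.PS

set_option autoImplicit false
set_option linter.unusedSectionVars false
set_option linter.style.haveILetI false

/-!
# GB / Patch / Framed : patching levels in coordinates

`IsFramed m t I φ ψ ρ` is the coordinate form of a `PatchingLevel` whose module has been
identified with `(S/I)^d` (`S = Λ` acting through `φ`) by a basis lifting a fixed `𝒪`-basis `m` of
`M`: `ρ f` is a matrix of the action of `f ∈ Λ`, well defined modulo `I`, with a uniform modulus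
of continuity `t`.  For `I = ⊥` such a datum IS a patching level (`IsFramed.toLevel`).
-/

namespace Fermat.Agent.GB.Patch

open IsLocalRing MvPowerSeries

variable {𝒪 : Type} [CommRing 𝒪] [IsLocalRing 𝒪] {r : ℕ}
  {R : Type} [CommRing R] [Algebra 𝒪 R] {M : Type} [AddCommGroup M] [Module R M] {d : ℕ}

/-- `m` is an `𝒪`-basis of `M` (for the `𝒪`-structure through `algebraMap 𝒪 R`). -/
structure IsOBasis (𝒪 : Type) [CommRing 𝒪] {R : Type} [CommRing R] [Algebra 𝒪 R] {M : Type}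
    [AddCommGroup M] [Module R M] {d : ℕ} (m : Fin d → M) : Prop where
  span : ∀ y : M, ∃ c : Fin d → 𝒪, y = ∑ i, algebraMap 𝒪 R (c i) • m i
  indep : ∀ c : Fin d → 𝒪, ∑ i, algebraMap 𝒪 R (c i) • m i = 0 → ∀ i, c i = 0

/-- Coordinate form of a patching level, with relation ideal `I`. -/
structure IsFramed (m : Fin d → M) (t : ℕ → ℕ) (I : Ideal (MvPowerSeries (Fin r) 𝒪))
    (φ : MvPowerSeries (Fin r) 𝒪 →ₐ[𝒪] MvPowerSeries (Fin r) 𝒪)
    (ψ : MvPowerSeries (Fin r) 𝒪 →ₐ[𝒪] R)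
    (ρ : MvPowerSeries (Fin r) 𝒪 → Matrix (Fin d) (Fin d) (MvPowerSeries (Fin r) 𝒪)) : Prop where
  ψ_surj : Function.Surjective ψ
  ψ_φ_X : ∀ i, ψ (φ (X i)) = 0
  ρ_add : ∀ f g i j, ρ (f + g) i j - (ρ f i j + ρ g i j) ∈ I
  ρ_mul : ∀ f g i j, ρ (f * g) i j - (ρ f * ρ g) i j ∈ I
  ρ_φ : ∀ s i j, ρ (φ s) i j - (if i = j then s else 0) ∈ I
  ρ_m : ∀ f j, ψ f • m j = ∑ i, algebraMap 𝒪 R (constantCoeff (ρ f i j)) • m i
  ρ_cont : ∀ k, ∀ f ∈ maximalIdeal (MvPowerSeries (Fin r) 𝒪) ^ (t k), ∀ i j,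
    ρ f i j ∈ maximalIdeal (MvPowerSeries (Fin r) 𝒪) ^ k ⊔ I

theorem IsFramed.mono {m : Fin d → M} {t : ℕ → ℕ} {I I' : Ideal (MvPowerSeries (Fin r) 𝒪)}
    (hI : I ≤ I') {φ ψ ρ} (h : IsFramed (R := R) m t I φ ψ ρ) : IsFramed m t I' φ ψ ρ where
  ψ_surj := h.ψ_surj
  ψ_φ_X := h.ψ_φ_X
  ρ_add f g i j := hI (h.ρ_add f g i j)
  ρ_mul f g i j := hI (h.ρ_mul f g i j)
  ρ_φ s i j := hI (h.ρ_φ s i j)
  ρ_m := h.ρ_m
  ρ_cont k f hf i j := (sup_le_sup_left hI _) (h.ρ_cont k f hf i j)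

/-- The carrier of the module of the patching level attached to an exact framed datum. -/
@[nolint unusedArguments]
def PN (_ρ : MvPowerSeries (Fin r) 𝒪 → Matrix (Fin d) (Fin d) (MvPowerSeries (Fin r) 𝒪)) : Type :=
  Fin d → MvPowerSeries (Fin r) 𝒪

namespace PN

variable (ρ : MvPowerSeries (Fin r) 𝒪 → Matrix (Fin d) (Fin d) (MvPowerSeries (Fin r) 𝒪))

instance : AddCommGroup (PN ρ) := inferInstanceAs (AddCommGroup (Fin d → MvPowerSeries (Fin r) 𝒪))

/-- the underlying vector -/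
def toFun (x : PN ρ) : Fin d → MvPowerSeries (Fin r) 𝒪 := x

/-- the element with given coordinates -/
def of (x : Fin d → MvPowerSeries (Fin r) 𝒪) : PN ρ := x

@[simp] theorem toFun_of (x : Fin d → MvPowerSeries (Fin r) 𝒪) : toFun ρ (of ρ x) = x := rfl
@[simp] theorem of_toFun (x : PN ρ) : of ρ (toFun ρ x) = x := rfl
@[simp] theorem toFun_add (x y : PN ρ) : toFun ρ (x + y) = toFun ρ x + toFun ρ y := rfl
@[simp] theorem toFun_zero : toFun ρ (0 : PN ρ) = 0 := rfl

theorem ext {x y : PN ρ} (h : toFun ρ x = toFun ρ y) : x = y := h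

end PN

section Exact

variable {m : Fin d → M} {t : ℕ → ℕ}
  {φ : MvPowerSeries (Fin r) 𝒪 →ₐ[𝒪] MvPowerSeries (Fin r) 𝒪}
  {ψ : MvPowerSeries (Fin r) 𝒪 →ₐ[𝒪] R}
  {ρ : MvPowerSeries (Fin r) 𝒪 → Matrix (Fin d) (Fin d) (MvPowerSeries (Fin r) 𝒪)}

theorem IsFramed.add_eq (h : IsFramed m t ⊥ φ ψ ρ) (f g : MvPowerSeries (Fin r) 𝒪) :
    ρ (f + g) = ρ f + ρ g := by
  refine Matrix.ext fun i j => ?_
  have := h.ρ_add f g i j
  rw [Ideal.mem_bot, sub_eq_zero] at this
  rw [this, Matrix.add_apply]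

theorem IsFramed.mul_eq (h : IsFramed m t ⊥ φ ψ ρ) (f g : MvPowerSeries (Fin r) 𝒪) :
    ρ (f * g) = ρ f * ρ g := by
  refine Matrix.ext fun i j => ?_
  have := h.ρ_mul f g i j
  rw [Ideal.mem_bot, sub_eq_zero] at this
  exact this

theorem IsFramed.phi_eq (h : IsFramed m t ⊥ φ ψ ρ) (s : MvPowerSeries (Fin r) 𝒪) :
    ρ (φ s) = Matrix.diagonal fun _ => s := by
  refine Matrix.ext fun i j => ?_
  have := h.ρ_φ s i j
  rw [Ideal.mem_bot, sub_eq_zero] at this
  rw [this, Matrix.diagonal_apply]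

theorem IsFramed.one_eq (h : IsFramed m t ⊥ φ ψ ρ) : ρ 1 = 1 := by
  have := h.phi_eq 1
  rw [map_one] at this
  rw [this, Matrix.diagonal_one]

theorem IsFramed.zero_eq (h : IsFramed m t ⊥ φ ψ ρ) : ρ 0 = 0 := by
  have := h.add_eq 0 0
  rw [add_zero] at this
  exact left_eq_add.mp this

/-- The module structure on `PN ρ` given by the matrices `ρ f`. -/
@[reducible] noncomputable def PN.module (h : IsFramed m t ⊥ φ ψ ρ) : Module (MvPowerSeries (Fin r) 𝒪) (PN ρ) where
  smul f x := PN.of ρ ((ρ f).mulVec (PN.toFun ρ x))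
  one_smul x := by
    show PN.of ρ ((ρ 1).mulVec (PN.toFun ρ x)) = x
    rw [h.one_eq, Matrix.one_mulVec]
    rfl
  mul_smul f g x := by
    show PN.of ρ ((ρ (f * g)).mulVec (PN.toFun ρ x)) =
      PN.of ρ ((ρ f).mulVec (PN.toFun ρ (PN.of ρ ((ρ g).mulVec (PN.toFun ρ x)))))
    rw [h.mul_eq, PN.toFun_of, Matrix.mulVec_mulVec]
  smul_zero f := by
    show PN.of ρ ((ρ f).mulVec (PN.toFun ρ 0)) = 0
    rw [PN.toFun_zero, Matrix.mulVec_zero]
    rfl
  smul_add f x y := by
    show PN.of ρ ((ρ f).mulVec (PN.toFun ρ (x + y))) =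
      PN.of ρ ((ρ f).mulVec (PN.toFun ρ x)) + PN.of ρ ((ρ f).mulVec (PN.toFun ρ y))
    rw [PN.toFun_add, Matrix.mulVec_add]
    rfl
  add_smul f g x := by
    show PN.of ρ ((ρ (f + g)).mulVec (PN.toFun ρ x)) =
      PN.of ρ ((ρ f).mulVec (PN.toFun ρ x)) + PN.of ρ ((ρ g).mulVec (PN.toFun ρ x))
    rw [h.add_eq, Matrix.add_mulVec]
    rfl
  zero_smul x := by
    show PN.of ρ ((ρ 0).mulVec (PN.toFun ρ x)) = 0
    rw [h.zero_eq, Matrix.zero_mulVec]
    rfl

theorem PN.toFun_smul (h : IsFramed m t ⊥ φ ψ ρ) (f : MvPowerSeries (Fin r) 𝒪) (x : PN ρ) :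
    letI := PN.module h
    PN.toFun ρ (f • x) = (ρ f).mulVec (PN.toFun ρ x) := rfl

theorem PN.toFun_phi_smul (h : IsFramed m t ⊥ φ ψ ρ) (s : MvPowerSeries (Fin r) 𝒪) (x : PN ρ)
    (i : Fin d) :
    letI := PN.module h
    PN.toFun ρ (φ s • x) i = s * PN.toFun ρ x i := by
  rw [PN.toFun_smul, h.phi_eq, Matrix.mulVec_diagonal]

theorem PN.toFun_sum (ρ : MvPowerSeries (Fin r) 𝒪 →
    Matrix (Fin d) (Fin d) (MvPowerSeries (Fin r) 𝒪)) {ι : Type*} (s : Finset ι)
    (x : ι → PN ρ) : PN.toFun ρ (∑ a ∈ s, x a) = ∑ a ∈ s, PN.toFun ρ (x a) := by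
  classical
  induction s using Finset.induction_on with
  | empty => simp
  | insert a s ha ih => rw [Finset.sum_insert ha, Finset.sum_insert ha, PN.toFun_add, ih]

/-- The projection to `M`. -/
noncomputable def piHom (R : Type) [CommRing R] [Algebra 𝒪 R] {M : Type} [AddCommGroup M]
    [Module R M] (m : Fin d → M)
    (ρ : MvPowerSeries (Fin r) 𝒪 → Matrix (Fin d) (Fin d) (MvPowerSeries (Fin r) 𝒪)) :
    PN ρ →+ M where
  toFun x := ∑ i, algebraMap 𝒪 R (constantCoeff (PN.toFun ρ x i)) • m i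
  map_zero' := by simp
  map_add' x y := by
    simp only [PN.toFun_add, Pi.add_apply, map_add, add_smul, Finset.sum_add_distrib]

theorem piHom_apply (x : PN ρ) :
    piHom R m ρ x = ∑ i, algebraMap 𝒪 R (constantCoeff (PN.toFun ρ x i)) • m i := rfl

theorem piHom_smul (h : IsFramed m t ⊥ φ ψ ρ) (f : MvPowerSeries (Fin r) 𝒪) (x : PN ρ) :
    letI := PN.module h
    piHom R m ρ (f • x) = ψ f • piHom R m ρ x := by
  rw [piHom_apply, piHom_apply, PN.toFun_smul, Finset.smul_sum]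
  have h1 : ∀ j, ψ f • algebraMap 𝒪 R (constantCoeff (PN.toFun ρ x j)) • m j =
      ∑ i, (algebraMap 𝒪 R (constantCoeff (ρ f i j)) *
        algebraMap 𝒪 R (constantCoeff (PN.toFun ρ x j))) • m i := by
    intro j
    rw [smul_comm, h.ρ_m f j, Finset.smul_sum]
    refine Finset.sum_congr rfl fun i _ => ?_
    rw [smul_smul, mul_comm]
  simp_rw [h1]
  rw [Finset.sum_comm]
  refine Finset.sum_congr rfl fun i _ => ?_
  rw [← Finset.sum_smul]
  congr 1
  simp only [Matrix.mulVec, dotProduct, map_sum, map_mul]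

theorem piHom_surjective (hm : IsOBasis 𝒪 (R := R) m) :
    Function.Surjective (piHom R m ρ) := by
  intro y
  obtain ⟨c, rfl⟩ := hm.span y
  refine ⟨PN.of ρ fun i => C (c i), ?_⟩
  rw [piHom_apply]
  simp

theorem piHom_eq_zero_iff (hm : IsOBasis 𝒪 (R := R) m) (x : PN ρ) :
    piHom R m ρ x = 0 ↔ ∀ i, constantCoeff (PN.toFun ρ x i) = 0 := by
  rw [piHom_apply]
  constructor
  · intro h
    exact hm.indep _ h
  · intro h
    simp [h]

/-- the standard basis vectors -/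
noncomputable def PN.e (ρ : MvPowerSeries (Fin r) 𝒪 →
    Matrix (Fin d) (Fin d) (MvPowerSeries (Fin r) 𝒪)) (i : Fin d) : PN ρ :=
  PN.of ρ (Pi.single i 1)

theorem PN.sum_phi_smul_e (h : IsFramed m t ⊥ φ ψ ρ)
    (c : Fin d → MvPowerSeries (Fin r) 𝒪) :
    letI := PN.module h
    ∑ i, φ (c i) • PN.e ρ i = PN.of ρ c := by
  classical
  apply PN.ext
  rw [PN.toFun_sum, PN.toFun_of]
  funext k
  rw [Finset.sum_apply]
  simp_rw [PN.toFun_phi_smul h]
  simp [PN.e, Pi.single_apply]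

/-- An exact framed datum is a patching level with trivial relation ideal. -/
theorem IsFramed.nonempty_level (hm : IsOBasis 𝒪 (R := R) m) (h : IsFramed m t ⊥ φ ψ ρ) :
    Nonempty (Algebra.PatchingLevel 𝒪 r R M ⊥) := by
  classical
  letI : Module (MvPowerSeries (Fin r) 𝒪) (PN ρ) := PN.module h
  have hψspan : ∀ a ∈ Ideal.span (Set.range fun i : Fin r => φ (X i)), ψ a = 0 := by
    intro a ha
    have hle : Ideal.span (Set.range fun i : Fin r => φ (X i)) ≤
        RingHom.ker (ψ : MvPowerSeries (Fin r) 𝒪 →+* R) := by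
      rw [Ideal.span_le]
      rintro _ ⟨i, rfl⟩
      exact h.ψ_φ_X i
    exact hle ha
  refine ⟨{
    N := PN ρ
    φ := φ
    ψ := ψ
    ψ_surjective := h.ψ_surj
    ψ_φ_X := h.ψ_φ_X
    π := piHom R m ρ
    π_smul := fun f x => piHom_smul h f x
    π_surjective := piHom_surjective hm
    ker_π := ?_
    d := d
    b := PN.e ρ
    b_span := ?_
    b_rel := ?_ }⟩
  · intro x
    constructor
    · intro hx
      rw [piHom_eq_zero_iff hm] at hx
      -- each coordinate lies in the ideal generated by the variables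
      have h1 : ∀ i, ∃ g : Fin r → MvPowerSeries (Fin r) 𝒪,
          ∑ j, g j * X j = PN.toFun ρ x i := by
        intro i
        have h2 := sub_C_constantCoeff_mem_span_X (PN.toFun ρ x i)
        rw [hx i, map_zero, sub_zero] at h2
        exact (Ideal.mem_span_range_iff_exists_fun).mp h2
      choose g hg using h1
      have h3 : x = ∑ j, φ (X j) • PN.of ρ (fun i => g i j) := by
        apply PN.ext
        rw [PN.toFun_sum]
        funext i
        rw [Finset.sum_apply]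
        simp_rw [PN.toFun_phi_smul h]
        rw [← hg i]
        refine Finset.sum_congr rfl fun j _ => ?_
        rw [PN.toFun_of, mul_comm]
      rw [h3]
      refine Submodule.sum_mem _ fun j _ => ?_
      exact Submodule.smul_mem_smul (Ideal.subset_span ⟨j, rfl⟩) Submodule.mem_top
    · intro hx
      refine Submodule.smul_induction_on hx (fun a ha y _ => ?_) (fun y z hy hz => ?_)
      · rw [piHom_smul h, hψspan a ha, zero_smul]
      · rw [map_add, hy, hz, add_zero]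
  · intro x
    refine ⟨PN.toFun ρ x, ?_⟩
    rw [PN.sum_phi_smul_e h]
    rfl
  · intro c
    rw [PN.sum_phi_smul_e h]
    constructor
    · intro hc i
      rw [Ideal.mem_bot]
      have : PN.toFun ρ (PN.of ρ c) i = PN.toFun ρ (0 : PN ρ) i := by rw [hc]
      simpa using this
    · intro hc
      apply PN.ext
      funext i
      have := hc i
      rw [Ideal.mem_bot] at this
      simp [this]

end Exact

end Fermat.Agent.GB.Patch
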