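import Fermat.Agent.GB.Patch.Basic
import Fermat.Agent.GB.Patch.Framed
import Fermat.Agent.S53.PSBasic

set_option autoImplicit false
set_option linter.unusedSectionVars false
set_option linter.style.haveILetI false

/-!
# GB / Patch / Cauchy : compactness — a Cauchy subsequence of framed data
-/

namespace Fermat.Agent.GB.Patch

open IsLocalRing MvPowerSeries

section

variable {𝒪 : Type} [CommRing 𝒪] [IsLocalRing 𝒪] {r : ℕ}
  {R : Type} [CommRing R] [Algebra 𝒪 R] {M : Type} [AddCommGroup M] [Module R M] {d : ℕ}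

theorem IsFramed.sub_mem {m : Fin d → M} {t : ℕ → ℕ} {I : Ideal (MvPowerSeries (Fin r) 𝒪)}
    {φ : MvPowerSeries (Fin r) 𝒪 →ₐ[𝒪] MvPowerSeries (Fin r) 𝒪}
    {ψ : MvPowerSeries (Fin r) 𝒪 →ₐ[𝒪] R}
    {ρ : MvPowerSeries (Fin r) 𝒪 → Matrix (Fin d) (Fin d) (MvPowerSeries (Fin r) 𝒪)}
    (h : IsFramed m t I φ ψ ρ) (a a' : MvPowerSeries (Fin r) 𝒪) (i j : Fin d) :
    ρ a i j - ρ a' i j - ρ (a - a') i j ∈ I := by
  have h1 := h.ρ_add (a - a') a' i j
  rw [sub_add_cancel] at h1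
  have h2 : ρ a i j - ρ a' i j - ρ (a - a') i j = ρ a i j - (ρ (a - a') i j + ρ a' i j) := by ring
  rw [h2]
  exact h1

end

section Compact

variable {𝒪 : Type} [CommRing 𝒪] [IsLocalRing 𝒪] [IsNoetherianRing 𝒪] [Finite (ResidueField 𝒪)]
  {r : ℕ}
  {R : Type} [CommRing R] [IsLocalRing R] [IsNoetherianRing R] [Algebra 𝒪 R]
  [IsLocalHom (algebraMap 𝒪 R)]
  {M : Type} [AddCommGroup M] [Module R M] {d : ℕ}

theorem finite_residueField_of_surjective
    (hres : Function.Surjective (residue R ∘ algebraMap 𝒪 R)) :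
    Finite (R ⧸ maximalIdeal R) := by
  have hs' : Function.Surjective (ResidueField.map (algebraMap 𝒪 R)) := by
    intro b
    obtain ⟨a, ha⟩ := hres b
    exact ⟨residue 𝒪 a, by rw [ResidueField.map_residue]; exact ha⟩
  exact Finite.of_surjective _ hs'

theorem finite_quotient_pow_of_surjective
    (hres : Function.Surjective (residue R ∘ algebraMap 𝒪 R)) (k : ℕ) :
    Finite (R ⧸ maximalIdeal R ^ k) := by
  have := finite_residueField_of_surjective (𝒪 := 𝒪) hres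
  exact Ideal.finite_quotient_pow (IsNoetherian.noetherian _) k

/-- values of a truncated datum at stage `k` -/
abbrev StageVal (𝒪 : Type) [CommRing 𝒪] [IsLocalRing 𝒪] (r : ℕ) (R : Type) [CommRing R]
    [IsLocalRing R] (d : ℕ) (t : ℕ → ℕ) (k : ℕ) : Type :=
  (MvPowerSeries (Fin r) 𝒪 ⧸ maximalIdeal (MvPowerSeries (Fin r) 𝒪) ^ (t k)) ×
    (R ⧸ maximalIdeal R ^ k) ×
    Matrix (Fin d) (Fin d)
      (MvPowerSeries (Fin r) 𝒪 ⧸ maximalIdeal (MvPowerSeries (Fin r) 𝒪) ^ k)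

/-- raw data: the three functions -/
abbrev Raw (𝒪 : Type) [CommRing 𝒪] (r : ℕ) (R : Type) (d : ℕ) : Type :=
  (MvPowerSeries (Fin r) 𝒪 → MvPowerSeries (Fin r) 𝒪) × (MvPowerSeries (Fin r) 𝒪 → R) ×
    (MvPowerSeries (Fin r) 𝒪 → Matrix (Fin d) (Fin d) (MvPowerSeries (Fin r) 𝒪))

/-- truncation to stage `k` -/
noncomputable def trunc (t : ℕ → ℕ) (k : ℕ) (x : Raw 𝒪 r R d) :
    MvPowerSeries (Fin r) 𝒪 → StageVal 𝒪 r R d t k :=
  fun f => (Ideal.Quotient.mk _ (x.1 f), Ideal.Quotient.mk _ (x.2.1 f),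
    (x.2.2 f).map (Ideal.Quotient.mk _))

/-- transition maps on values -/
noncomputable def redVal (t : ℕ → ℕ) (ht : Monotone t) (k : ℕ) :
    StageVal 𝒪 r R d t (k + 1) → StageVal 𝒪 r R d t k :=
  fun y => (Ideal.Quotient.factor (Ideal.pow_le_pow_right (ht (Nat.le_succ k))) y.1,
    Ideal.Quotient.factor (Ideal.pow_le_pow_right (Nat.le_succ k)) y.2.1,
    y.2.2.map (Ideal.Quotient.factor (Ideal.pow_le_pow_right (Nat.le_succ k))))

theorem redVal_trunc (t : ℕ → ℕ) (ht : Monotone t) (k : ℕ) (x : Raw 𝒪 r R d)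
    (f : MvPowerSeries (Fin r) 𝒪) :
    redVal t ht k (trunc t (k + 1) x f) = trunc t k x f := by
  refine Prod.ext ?_ (Prod.ext ?_ ?_)
  · simp only [redVal, trunc, Ideal.Quotient.factor_mk]
  · simp only [redVal, trunc, Ideal.Quotient.factor_mk]
  · refine Matrix.ext fun i j => ?_
    simp only [redVal, trunc, Matrix.map_apply, Ideal.Quotient.factor_mk]

/-- Compactness: from framed data modulo `𝔪^n` for every `n`, extract a Cauchy sequence. -/
theorem exists_cauchy (hres : Function.Surjective (residue R ∘ algebraMap 𝒪 R))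
    {m : Fin d → M} {t : ℕ → ℕ} (ht_le : ∀ k, k ≤ t k) (ht_mono : Monotone t)
    (F : ∀ n, ∃ (φ : MvPowerSeries (Fin r) 𝒪 →ₐ[𝒪] MvPowerSeries (Fin r) 𝒪)
      (ψ : MvPowerSeries (Fin r) 𝒪 →ₐ[𝒪] R)
      (ρ : MvPowerSeries (Fin r) 𝒪 → Matrix (Fin d) (Fin d) (MvPowerSeries (Fin r) 𝒪)),
      IsFramed m t (maximalIdeal (MvPowerSeries (Fin r) 𝒪) ^ n) φ ψ ρ) :
    ∃ (φ : ℕ → MvPowerSeries (Fin r) 𝒪 →ₐ[𝒪] MvPowerSeries (Fin r) 𝒪)
      (ψ : ℕ → MvPowerSeries (Fin r) 𝒪 →ₐ[𝒪] R)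
      (ρ : ℕ → MvPowerSeries (Fin r) 𝒪 →
        Matrix (Fin d) (Fin d) (MvPowerSeries (Fin r) 𝒪)),
      (∀ k, IsFramed m t (maximalIdeal (MvPowerSeries (Fin r) 𝒪) ^ k) (φ k) (ψ k) (ρ k)) ∧
      (∀ k f, φ (k + 1) f - φ k f ∈ maximalIdeal (MvPowerSeries (Fin r) 𝒪) ^ (t k)) ∧
      (∀ k f, ψ (k + 1) f - ψ k f ∈ maximalIdeal R ^ k) ∧
      (∀ k f i j, ρ (k + 1) f i j - ρ k f i j ∈
        maximalIdeal (MvPowerSeries (Fin r) 𝒪) ^ k) := by
  classical
  choose φ0 ψ0 ρ0 hF using F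
  let x : ℕ → Raw 𝒪 r R d := fun n => (⇑(φ0 n), ⇑(ψ0 n), ρ0 n)
  have hfinΛ : ∀ k, Finite (MvPowerSeries (Fin r) 𝒪 ⧸
      maximalIdeal (MvPowerSeries (Fin r) 𝒪) ^ k) := fun k =>
    Fermat.Agent.S53.finite_quotient_maximalIdeal_pow 𝒪 (Fin r) k
  have hfinR : ∀ k, Finite (R ⧸ maximalIdeal R ^ k) := fun k =>
    finite_quotient_pow_of_surjective (𝒪 := 𝒪) hres k
  have hfin : ∀ k, (Set.range fun n : {n : ℕ // k ≤ n} => trunc t k (x n)).Finite := by
    intro k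
    haveI := hfinΛ (t k)
    haveI := hfinΛ k
    haveI := hfinR k
    let s : Setoid (MvPowerSeries (Fin r) 𝒪) :=
      (maximalIdeal (MvPowerSeries (Fin r) 𝒪) ^ (t k)).quotientRel
    haveI : Finite (Quotient s) := inferInstanceAs (Finite (MvPowerSeries (Fin r) 𝒪 ⧸
      maximalIdeal (MvPowerSeries (Fin r) 𝒪) ^ (t k)))
    refine (finite_setOf_factors (β := StageVal 𝒪 r R d t k) s).subset ?_
    rintro _ ⟨⟨n, hn⟩, rfl⟩ a a' haa'
    have haa : a - a' ∈ maximalIdeal (MvPowerSeries (Fin r) 𝒪) ^ (t k) :=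
      (Submodule.quotientRel_def _).mp haa'
    have hFn := hF n
    refine Prod.ext ?_ (Prod.ext ?_ ?_)
    · show Ideal.Quotient.mk _ (φ0 n a) = Ideal.Quotient.mk _ (φ0 n a')
      rw [Ideal.Quotient.eq, ← map_sub]
      exact algEnd_mem_pow (φ0 n) haa
    · show Ideal.Quotient.mk _ (ψ0 n a) = Ideal.Quotient.mk _ (ψ0 n a')
      rw [Ideal.Quotient.eq, ← map_sub]
      exact Ideal.pow_le_pow_right (ht_le k) (algHom_mem_pow hres (ψ0 n) haa)
    · refine Matrix.ext fun i j => ?_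
      show Ideal.Quotient.mk _ (ρ0 n a i j) = Ideal.Quotient.mk _ (ρ0 n a' i j)
      rw [Ideal.Quotient.eq]
      have h1 := Ideal.pow_le_pow_right hn (hFn.sub_mem a a' i j)
      have h2 := hFn.ρ_cont k (a - a') haa i j
      rw [sup_of_le_left (Ideal.pow_le_pow_right hn)] at h2
      have h3 : ρ0 n a i j - ρ0 n a' i j =
          (ρ0 n a i j - ρ0 n a' i j - ρ0 n (a - a') i j) + ρ0 n (a - a') i j := by ring
      rw [h3]
      exact add_mem h1 h2
  obtain ⟨n, hn1, hn2⟩ := exists_cauchy_subseq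
    (Y := fun k => MvPowerSeries (Fin r) 𝒪 → StageVal 𝒪 r R d t k) (trunc t)
    (fun k g f => redVal t ht_mono k (g f))
    (fun k x => funext fun f => redVal_trunc t ht_mono k x f) x hfin
  refine ⟨fun k => φ0 (n k), fun k => ψ0 (n k), fun k => ρ0 (n k),
    fun k => (hF (n k)).mono (Ideal.pow_le_pow_right (hn1 k)), fun k f => ?_, fun k f => ?_,
    fun k f i j => ?_⟩
  · have h := congrArg Prod.fst (congrFun (hn2 k) f)
    exact Ideal.Quotient.eq.mp h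
  · have h := congrArg (fun y => y.2.1) (congrFun (hn2 k) f)
    exact Ideal.Quotient.eq.mp h
  · have h := congrArg (fun y => y.2.2 i j) (congrFun (hn2 k) f)
    exact Ideal.Quotient.eq.mp h

end Compact

end Fermat.Agent.GB.Patch
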