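import Fermat.Agent.GB.Patch.Main
import Fermat.Agent.S57

set_option autoImplicit false

/-!
# GB / Patch / Consequence : patching + descent (S57)

`free_of_patchingDatum` : if an `R`-module `M ≠ 0` carries a patching datum (Taylor–Wiles
systems at every level `n`), then `M` is free and faithful over `R`.  This is the abstract
`R = T` engine: `R` a universal deformation ring, `M` a Hecke module.
-/

namespace Fermat.Agent.GB.Patch

open IsLocalRing

theorem free_of_patchingDatum
    {𝒪 : Type} [CommRing 𝒪] [IsDomain 𝒪] [IsDiscreteValuationRing 𝒪]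
    [IsAdicComplete (maximalIdeal 𝒪) 𝒪] [Finite (ResidueField 𝒪)] {ℓ r : ℕ}
    {R : Type} [CommRing R] [IsLocalRing R] [IsNoetherianRing R]
    [IsAdicComplete (maximalIdeal R) R] [Algebra 𝒪 R] [IsLocalHom (algebraMap 𝒪 R)]
    {M : Type} [AddCommGroup M] [Module R M] [Nontrivial M]
    (hℓ : (ℓ : 𝒪) ∈ maximalIdeal 𝒪)
    (hres : Function.Surjective (residue R ∘ algebraMap 𝒪 R))
    (D : Algebra.PatchingDatum 𝒪 ℓ r R M) :
    Module.Free R M ∧ Module.annihilator R M = ⊥ := by
  obtain ⟨L⟩ := exists_patchingLevel_bot hℓ hres D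
  have h := Fermat.Agent.S57.result L
  exact ⟨h.1, h.2.1⟩

end Fermat.Agent.GB.Patch
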