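import Fermat.Agent.GB.Patch.Cauchy
import Fermat.Agent.GP.Alg.TangentSurj

set_option autoImplicit false
set_option linter.unusedSectionVars false
set_option linter.style.haveILetI false

/-!
# GB / Patch / Limit : the limit of a Cauchy sequence of framed data is an exact framed datum
-/

namespace Fermat.Agent.GB.Patch

open IsLocalRing MvPowerSeries

section

variable {𝒪 : Type} [CommRing 𝒪] [IsLocalRing 𝒪] [IsNoetherianRing 𝒪]
  [IsAdicComplete (maximalIdeal 𝒪) 𝒪] {r : ℕ}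
  {R : Type} [CommRing R] [IsLocalRing R] [IsNoetherianRing R]
  [IsAdicComplete (maximalIdeal R) R] [Algebra 𝒪 R] [IsLocalHom (algebraMap 𝒪 R)]
  {M : Type} [AddCommGroup M] [Module R M] {d : ℕ}

theorem IsOBasis.moduleFinite {m : Fin d → M} (hm : IsOBasis 𝒪 (R := R) m) :
    Module.Finite R M := by
  classical
  refine ⟨⟨Finset.univ.image m, ?_⟩⟩
  rw [_root_.eq_top_iff]
  rintro y -
  obtain ⟨c, rfl⟩ := hm.span y
  refine Submodule.sum_mem _ fun i _ => ?_
  refine Submodule.smul_mem _ _ (Submodule.subset_span ?_)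
  simp

/-- `M` is separated for the `𝔪_R`-adic topology. -/
theorem IsOBasis.eq_zero_of_forall_mem {m : Fin d → M} (hm : IsOBasis 𝒪 (R := R) m) {y : M}
    (h : ∀ k : ℕ, y ∈ (maximalIdeal R ^ k • ⊤ : Submodule R M)) : y = 0 := by
  haveI := hm.moduleFinite
  have h1 := Ideal.iInf_pow_smul_eq_bot_of_isLocalRing (R := R) (M := M) (maximalIdeal R)
    (Ideal.IsPrime.ne_top inferInstance)
  have h2 : y ∈ (⨅ i : ℕ, maximalIdeal R ^ i • ⊤ : Submodule R M) :=
    (Submodule.mem_iInf _).mpr h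
  rw [h1] at h2
  exact (Submodule.mem_bot R).mp h2

/-- The limit of a Cauchy sequence of framed data. -/
theorem exists_isFramed_bot (hres : Function.Surjective (residue R ∘ algebraMap 𝒪 R))
    {m : Fin d → M} (hm : IsOBasis 𝒪 (R := R) m) {t : ℕ → ℕ} (ht_le : ∀ k, k ≤ t k)
    (ht_mono : Monotone t)
    (φ : ℕ → MvPowerSeries (Fin r) 𝒪 →ₐ[𝒪] MvPowerSeries (Fin r) 𝒪)
    (ψ : ℕ → MvPowerSeries (Fin r) 𝒪 →ₐ[𝒪] R)
    (ρ : ℕ → MvPowerSeries (Fin r) 𝒪 → Matrix (Fin d) (Fin d) (MvPowerSeries (Fin r) 𝒪))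
    (hF : ∀ k, IsFramed m t (maximalIdeal (MvPowerSeries (Fin r) 𝒪) ^ k) (φ k) (ψ k) (ρ k))
    (T1 : ∀ k f, φ (k + 1) f - φ k f ∈ maximalIdeal (MvPowerSeries (Fin r) 𝒪) ^ (t k))
    (T2 : ∀ k f, ψ (k + 1) f - ψ k f ∈ maximalIdeal R ^ k)
    (T3 : ∀ k f i j, ρ (k + 1) f i j - ρ k f i j ∈
      maximalIdeal (MvPowerSeries (Fin r) 𝒪) ^ k) :
    ∃ (φ' : MvPowerSeries (Fin r) 𝒪 →ₐ[𝒪] MvPowerSeries (Fin r) 𝒪)
      (ψ' : MvPowerSeries (Fin r) 𝒪 →ₐ[𝒪] R)
      (ρ' : MvPowerSeries (Fin r) 𝒪 → Matrix (Fin d) (Fin d) (MvPowerSeries (Fin r) 𝒪)),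
      IsFramed m t ⊥ φ' ψ' ρ' := by
  classical
  haveI hΛ : IsAdicComplete (maximalIdeal (MvPowerSeries (Fin r) 𝒪)) (MvPowerSeries (Fin r) 𝒪) :=
    Fermat.Agent.S53.isAdicComplete_mvPowerSeries 𝒪 (Fin r)
  -- notation
  set 𝔪 := maximalIdeal (MvPowerSeries (Fin r) 𝒪) with h𝔪
  -- the three limits
  obtain ⟨φ', hφ'⟩ := exists_algHom_limit 𝔪 t ht_le ht_mono φ T1
  obtain ⟨ψ', hψ'⟩ := exists_algHom_limit (maximalIdeal R) (fun k => k) (fun k => le_rfl)
    monotone_id ψ T2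
  have hex : ∀ f i j, ∃ a : MvPowerSeries (Fin r) 𝒪, ∀ k, a - ρ k f i j ∈ 𝔪 ^ k := fun f i j =>
    exists_limit 𝔪 (fun k => k) (fun k => le_rfl) monotone_id (fun k => ρ k f i j)
      (fun k => T3 k f i j)
  choose ρ' hρ' using hex
  -- separatedness
  have hsepΛ : ∀ {a : MvPowerSeries (Fin r) 𝒪}, (∀ k, a ∈ 𝔪 ^ k) → a = 0 := fun {a} h =>
    eq_of_forall_sub_mem_pow 𝔪 (a := a) (b := 0) (fun k => by rw [sub_zero]; exact h k)
  have hsepR : ∀ {a : R}, (∀ k, a ∈ maximalIdeal R ^ k) → a = 0 := fun {a} h =>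
    eq_of_forall_sub_mem_pow (maximalIdeal R) (a := a) (b := 0)
      (fun k => by rw [sub_zero]; exact h k)
  have hbot : ∀ {a : MvPowerSeries (Fin r) 𝒪}, (∀ k, a ∈ 𝔪 ^ k) →
      a ∈ (⊥ : Ideal (MvPowerSeries (Fin r) 𝒪)) := fun h => by
    rw [Ideal.mem_bot]; exact hsepΛ h
  refine ⟨φ', ψ', fun f => Matrix.of (ρ' f), ?_⟩
  refine { ψ_surj := ?_, ψ_φ_X := ?_, ρ_add := ?_, ρ_mul := ?_, ρ_φ := ?_, ρ_m := ?_,
           ρ_cont := ?_ }
  · -- surjectivity of `ψ'`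
    have hX : ∀ i, ψ' (X i) ∈ maximalIdeal R := fun i =>
      algHom_mem_maximalIdeal hres ψ' (Fermat.Agent.S53.PSC.X_mem 𝒪 (Fin r) i)
    have hspan : maximalIdeal R ≤ Ideal.span (Set.range fun i => ψ' (X i)) ⊔
        Fermat.Agent.GP.Alg.lamR 𝒪 R ⊔ maximalIdeal R ^ 2 := by
      intro y hy
      obtain ⟨f, rfl⟩ := (hF 2).ψ_surj y
      have hf : f ∈ 𝔪 := by
        by_contra hcon
        have hu : IsUnit f := by
          by_contra h
          exact hcon h
        exact hy (hu.map (ψ 2))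
      obtain ⟨g, hg⟩ := (Ideal.mem_span_range_iff_exists_fun).mp
        (sub_C_constantCoeff_mem_span_X f)
      have hC : ψ 2 (C (constantCoeff f)) = algebraMap 𝒪 R (constantCoeff f) := by
        have := (ψ 2).commutes (constantCoeff f)
        rwa [MvPowerSeries.algebraMap_apply, Algebra.algebraMap_self, RingHom.id_apply] at this
      have h1 : ψ 2 f = ∑ i, ψ 2 (g i) * ψ' (X i) + algebraMap 𝒪 R (constantCoeff f) -
          ∑ i, ψ 2 (g i) * (ψ' (X i) - ψ 2 (X i)) := by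
        have h2 : f = ∑ i, g i * X i + C (constantCoeff f) := by rw [hg]; ring
        conv_lhs => rw [h2]
        rw [map_add, map_sum, hC]
        simp only [map_mul, mul_sub, Finset.sum_sub_distrib]
        ring
      rw [h1]
      refine sub_mem (Ideal.mem_sup_left (add_mem (Ideal.mem_sup_left ?_)
        (Ideal.mem_sup_right ?_))) (Ideal.mem_sup_right ?_)
      · exact Ideal.sum_mem _ fun i _ => Ideal.mul_mem_left _ _ (Ideal.subset_span ⟨i, rfl⟩)
      · exact Ideal.mem_map_of_mem _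
          ((Fermat.Agent.S53.PSC.mem_maximalIdeal_iff 𝒪 (Fin r) f).mp hf)
      · exact Ideal.sum_mem _ fun i _ => Ideal.mul_mem_left _ _ (hψ' 2 (X i))
    obtain ⟨γ, hγX, hγ⟩ := Fermat.Agent.GP.Alg.exists_surjective_of_span hres
      (fun i => ψ' (X i)) hX hspan
    have : ψ' = γ := Fermat.Agent.S53.algHom_ext_X ψ' γ hX (fun s => (hγX s).symm)
    rw [this]
    exact hγ
  · -- `ψ' (φ' X_i) = 0`
    intro i
    refine hsepR fun k => ?_
    have h1 : ψ' (φ' (X i)) = (ψ' (φ' (X i)) - ψ k (φ' (X i))) +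
        ψ k (φ' (X i) - φ k (X i)) + ψ k (φ k (X i)) := by
      rw [map_sub]; ring
    rw [h1, (hF k).ψ_φ_X i, add_zero]
    refine add_mem (hψ' k _) ?_
    exact Ideal.pow_le_pow_right (ht_le k) (algHom_mem_pow hres (ψ k) (hφ' k (X i)))
  · -- additivity
    intro f g i j
    refine hbot fun k => ?_
    have h1 : ρ' (f + g) i j - (ρ' f i j + ρ' g i j) =
        (ρ' (f + g) i j - ρ k (f + g) i j) - ((ρ' f i j - ρ k f i j) + (ρ' g i j - ρ k g i j)) +
          (ρ k (f + g) i j - (ρ k f i j + ρ k g i j)) := by ring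
    show ρ' (f + g) i j - (ρ' f i j + ρ' g i j) ∈ 𝔪 ^ k
    rw [h1]
    exact add_mem (sub_mem (hρ' _ i j k) (add_mem (hρ' f i j k) (hρ' g i j k)))
      ((hF k).ρ_add f g i j)
  · -- multiplicativity
    intro f g i j
    refine hbot fun k => ?_
    show ρ' (f * g) i j - (Matrix.of (ρ' f) * Matrix.of (ρ' g)) i j ∈ 𝔪 ^ k
    have h1 : ρ' (f * g) i j - (Matrix.of (ρ' f) * Matrix.of (ρ' g)) i j =
        (ρ' (f * g) i j - ρ k (f * g) i j) + (ρ k (f * g) i j - (ρ k f * ρ k g) i j) -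
          ∑ l, ((ρ' f i l - ρ k f i l) * ρ' g l j + ρ k f i l * (ρ' g l j - ρ k g l j)) := by
      simp only [Matrix.mul_apply, Matrix.of_apply]
      have h2 : ∀ l, (ρ' f i l - ρ k f i l) * ρ' g l j + ρ k f i l * (ρ' g l j - ρ k g l j) =
          ρ' f i l * ρ' g l j - ρ k f i l * ρ k g l j := fun l => by ring
      simp_rw [h2]
      rw [Finset.sum_sub_distrib]
      ring
    rw [h1]
    refine sub_mem (add_mem (hρ' _ i j k) ((hF k).ρ_mul f g i j)) ?_
    exact Ideal.sum_mem _ fun l _ => add_mem (Ideal.mul_mem_right _ _ (hρ' f i l k))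
      (Ideal.mul_mem_left _ _ (hρ' g l j k))
  · -- `ρ' (φ' s) = s`
    intro s i j
    refine hbot fun k => ?_
    show ρ' (φ' s) i j - (if i = j then s else 0) ∈ 𝔪 ^ k
    have h1 : ρ' (φ' s) i j - (if i = j then s else 0) =
        (ρ' (φ' s) i j - ρ k (φ' s) i j) +
        (ρ k (φ' s) i j - ρ k (φ k s) i j - ρ k (φ' s - φ k s) i j) +
        ρ k (φ' s - φ k s) i j + (ρ k (φ k s) i j - (if i = j then s else 0)) := by ring
    rw [h1]
    refine add_mem (add_mem (add_mem (hρ' _ i j k) ((hF k).sub_mem _ _ i j)) ?_)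
      ((hF k).ρ_φ s i j)
    have h2 := (hF k).ρ_cont k _ (hφ' k s) i j
    rwa [sup_idem] at h2
  · -- compatibility with `M`
    intro f j
    rw [← sub_eq_zero]
    refine hm.eq_zero_of_forall_mem fun k => ?_
    have h1 : ψ' f • m j - ∑ i, algebraMap 𝒪 R (constantCoeff (Matrix.of (ρ' f) i j)) • m i =
        (ψ' f - ψ k f) • m j -
          ∑ i, algebraMap 𝒪 R (constantCoeff (ρ' f i j - ρ k f i j)) • m i := by
      simp only [Matrix.of_apply, map_sub, sub_smul, Finset.sum_sub_distrib]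
      rw [(hF k).ρ_m f j]
      abel
    rw [h1]
    refine sub_mem (Submodule.smul_mem_smul (hψ' k f) Submodule.mem_top)
      (Submodule.sum_mem _ fun i _ => Submodule.smul_mem_smul ?_ Submodule.mem_top)
    exact algebraMap_mem_pow (constantCoeff_mem_pow (hρ' f i j k))
  · -- continuity
    intro k f hf i j
    show ρ' f i j ∈ 𝔪 ^ k ⊔ ⊥
    rw [sup_bot_eq]
    have h1 : ρ' f i j = (ρ' f i j - ρ k f i j) + ρ k f i j := by ring
    rw [h1]
    have h2 := (hF k).ρ_cont k f hf i j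
    rw [sup_idem] at h2
    exact add_mem (hρ' f i j k) h2

end

end Fermat.Agent.GB.Patch
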