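import Fermat.Agent.GB.Patch.Rebase
import Fermat.Agent.GB.Patch.Limit

set_option autoImplicit false
set_option linter.unusedSectionVars false
set_option linter.style.haveILetI false

/-!
# GB / Patch / Main : the patching theorem in the Prelude vocabulary

`exists_patchingLevel_bot` : a `PatchingDatum` (a `PatchingLevel` with relation ideal
`J_n = ((1+X_j)^(ℓ^n) - 1)_j` for every `n`) over a complete noetherian local `𝒪` with finite
residue field, `ℓ ∈ 𝔪_𝒪`, and a complete noetherian local `𝒪`-algebra `R` with the same residue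
field, yields a `PatchingLevel` with relation ideal `⊥` — to which the frozen statement S57 applies.
-/

namespace Fermat.Agent.GB.Patch

open IsLocalRing MvPowerSeries

section

variable {𝒪 : Type} [CommRing 𝒪] [IsLocalRing 𝒪] {r : ℕ}

/-- the relation ideal of level `n` of a patching datum -/
noncomputable abbrev levelIdeal (𝒪 : Type) [CommRing 𝒪] (ℓ r n : ℕ) :
    Ideal (MvPowerSeries (Fin r) 𝒪) :=
  Ideal.span (Set.range fun j : Fin r =>
    ((1 + MvPowerSeries.X j) ^ (ℓ ^ n) - 1 : MvPowerSeries (Fin r) 𝒪))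

theorem constantCoeff_eq_zero_of_mem_levelIdeal {ℓ n : ℕ} {f : MvPowerSeries (Fin r) 𝒪}
    (hf : f ∈ levelIdeal 𝒪 ℓ r n) : constantCoeff f = 0 := by
  have hle : levelIdeal 𝒪 ℓ r n ≤ RingHom.ker (constantCoeff (σ := Fin r) (R := 𝒪)) := by
    rw [levelIdeal, Ideal.span_le]
    rintro _ ⟨j, rfl⟩
    simp [RingHom.mem_ker]
  exact hle hf

theorem levelIdeal_le_pow {ℓ : ℕ} (hℓ : (ℓ : 𝒪) ∈ maximalIdeal 𝒪) (n : ℕ) :
    levelIdeal 𝒪 ℓ r n ≤ maximalIdeal (MvPowerSeries (Fin r) 𝒪) ^ n := by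
  rw [levelIdeal, Ideal.span_le]
  rintro _ ⟨j, rfl⟩
  exact Ideal.pow_le_pow_right (Nat.le_succ n) (one_add_X_pow_sub_one_mem hℓ j n)

end

section Main

variable {𝒪 : Type} [CommRing 𝒪] [IsLocalRing 𝒪] [IsNoetherianRing 𝒪]
  [IsAdicComplete (maximalIdeal 𝒪) 𝒪] [Finite (ResidueField 𝒪)] {ℓ r : ℕ}
  {R : Type} [CommRing R] [IsLocalRing R] [IsNoetherianRing R]
  [IsAdicComplete (maximalIdeal R) R] [Algebra 𝒪 R] [IsLocalHom (algebraMap 𝒪 R)]
  {M : Type} [AddCommGroup M] [Module R M]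

/-- the modulus of continuity -/
noncomputable def modulus (𝒪 : Type) [CommRing 𝒪] [IsLocalRing 𝒪] (r d : ℕ) (k : ℕ) : ℕ :=
  k + Nat.card (Fin d → MvPowerSeries (Fin r) 𝒪 ⧸ maximalIdeal (MvPowerSeries (Fin r) 𝒪) ^ k)

omit [IsAdicComplete (maximalIdeal 𝒪) 𝒪] in
theorem modulus_mono (d : ℕ) : Monotone (modulus 𝒪 r d) := by
  refine monotone_nat_of_le_succ fun k => ?_
  haveI : Finite (MvPowerSeries (Fin r) 𝒪 ⧸ maximalIdeal (MvPowerSeries (Fin r) 𝒪) ^ (k + 1)) :=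
    Fermat.Agent.S53.finite_quotient_maximalIdeal_pow 𝒪 (Fin r) (k + 1)
  have hs : Function.Surjective
      (fun (c : Fin d → MvPowerSeries (Fin r) 𝒪 ⧸
          maximalIdeal (MvPowerSeries (Fin r) 𝒪) ^ (k + 1)) (i : Fin d) =>
        Ideal.Quotient.factor (Ideal.pow_le_pow_right (Nat.le_succ k)) (c i)) := by
    intro c
    refine ⟨fun i => Ideal.Quotient.mk _ (c i).out, ?_⟩
    funext i
    show Ideal.Quotient.factor (Ideal.pow_le_pow_right (Nat.le_succ k))
      (Ideal.Quotient.mk _ (c i).out) = c i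
    rw [Ideal.Quotient.factor_mk]
    exact Quotient.out_eq _
  have := Nat.card_le_card_of_surjective _ hs
  unfold modulus
  omega

/-- **Patching.**  A patching datum yields a patching level with trivial relation ideal. -/
theorem exists_patchingLevel_bot (hℓ : (ℓ : 𝒪) ∈ maximalIdeal 𝒪)
    (hres : Function.Surjective (residue R ∘ algebraMap 𝒪 R))
    (D : Algebra.PatchingDatum 𝒪 ℓ r R M) :
    Nonempty (Algebra.PatchingLevel 𝒪 r R M ⊥) := by
  -- the fixed `𝒪`-basis of `M`, from level `0`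
  have hJ : ∀ n, ∀ f ∈ levelIdeal 𝒪 ℓ r n, constantCoeff f = 0 := fun n f hf =>
    constantCoeff_eq_zero_of_mem_levelIdeal hf
  let L0 := D.level 0
  have hm : IsOBasis 𝒪 (R := R) (fun i => L0.π (L0.b i)) := isOBasis_pi_b L0 (hJ 0)
  set m : Fin L0.d → M := fun i => L0.π (L0.b i) with hm_def
  -- framed data at every level
  have F : ∀ n, ∃ (φ : MvPowerSeries (Fin r) 𝒪 →ₐ[𝒪] MvPowerSeries (Fin r) 𝒪)
      (ψ : MvPowerSeries (Fin r) 𝒪 →ₐ[𝒪] R)
      (ρ : MvPowerSeries (Fin r) 𝒪 → Matrix (Fin L0.d) (Fin L0.d) (MvPowerSeries (Fin r) 𝒪)),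
      IsFramed m (modulus 𝒪 r L0.d) (maximalIdeal (MvPowerSeries (Fin r) 𝒪) ^ n) φ ψ ρ := by
    intro n
    obtain ⟨b', hb, hπ⟩ := exists_isSBasis_lift (D.level n) (hJ n) hm
    exact ⟨_, _, _, (hb.isFramed hπ (t := modulus 𝒪 r L0.d)
      (fun k => Nat.le_add_left _ _)).mono (levelIdeal_le_pow hℓ n)⟩
  obtain ⟨φ, ψ, ρ, hF, T1, T2, T3⟩ := exists_cauchy hres (fun k => Nat.le_add_right _ _)
    (modulus_mono L0.d) F
  obtain ⟨φ', ψ', ρ', h⟩ := exists_isFramed_bot hres hm (fun k => Nat.le_add_right _ _)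
    (modulus_mono L0.d) φ ψ ρ hF T1 T2 T3
  exact h.nonempty_level hm

end Main

end Fermat.Agent.GB.Patch
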