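import Fermat.Agent.GB.Patch.Basic
import Fermat.Agent.GB.Patch.Framed
import Fermat.Agent.S53.PSBasic

set_option autoImplicit false
set_option linter.unusedSectionVars false
set_option linter.style.haveILetI false

/-!
# GB / Patch / OfLevel : a patching level with a basis lifting `m` is framed
-/

namespace Fermat.Agent.GB.Patch

open IsLocalRing MvPowerSeries

section

variable {𝒪 : Type} [CommRing 𝒪] [IsLocalRing 𝒪] {r : ℕ}
  {R : Type} [CommRing R] [Algebra 𝒪 R] {M : Type} [AddCommGroup M] [Module R M] {d : ℕ}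
  {J : Ideal (MvPowerSeries (Fin r) 𝒪)}

/-- A basis of the module of a patching level over `S = Λ` (acting through `φ`), with relation
ideal `J`. -/
structure IsSBasis (L : Algebra.PatchingLevel 𝒪 r R M J) (b' : Fin d → L.N) : Prop where
  span : ∀ x : L.N, ∃ c : Fin d → MvPowerSeries (Fin r) 𝒪, x = ∑ i, L.φ (c i) • b' i
  rel : ∀ c : Fin d → MvPowerSeries (Fin r) 𝒪, ∑ i, L.φ (c i) • b' i = 0 ↔ ∀ i, c i ∈ J

variable {L : Algebra.PatchingLevel 𝒪 r R M J} {b' : Fin d → L.N}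

theorem IsSBasis.sub_mem (hb : IsSBasis L b') {c c' : Fin d → MvPowerSeries (Fin r) 𝒪}
    (h : ∑ i, L.φ (c i) • b' i = ∑ i, L.φ (c' i) • b' i) (i : Fin d) : c i - c' i ∈ J := by
  have h1 : ∑ i, L.φ ((c - c') i) • b' i = 0 := by
    simp only [Pi.sub_apply, map_sub, sub_smul, Finset.sum_sub_distrib]
    rw [h, sub_self]
  exact (hb.rel (c - c')).mp h1 i

theorem IsSBasis.exists_matrix (hb : IsSBasis L b') (f : MvPowerSeries (Fin r) 𝒪) :
    ∃ A : Matrix (Fin d) (Fin d) (MvPowerSeries (Fin r) 𝒪),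
      ∀ j, f • b' j = ∑ i, L.φ (A i j) • b' i := by
  have h1 : ∀ j, ∃ c : Fin d → MvPowerSeries (Fin r) 𝒪, f • b' j = ∑ i, L.φ (c i) • b' i :=
    fun j => hb.span (f • b' j)
  choose c hc using h1
  exact ⟨fun i j => c j i, hc⟩

/-- matrices of the action in the basis `b'` -/
noncomputable def IsSBasis.rho (hb : IsSBasis L b') (f : MvPowerSeries (Fin r) 𝒪) :
    Matrix (Fin d) (Fin d) (MvPowerSeries (Fin r) 𝒪) :=
  Classical.choose (hb.exists_matrix f)

theorem IsSBasis.rho_spec (hb : IsSBasis L b') (f : MvPowerSeries (Fin r) 𝒪) (j : Fin d) :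
    f • b' j = ∑ i, L.φ (hb.rho f i j) • b' i :=
  Classical.choose_spec (hb.exists_matrix f) j

theorem IsSBasis.smul_sum (hb : IsSBasis L b') (f : MvPowerSeries (Fin r) 𝒪)
    (c : Fin d → MvPowerSeries (Fin r) 𝒪) :
    f • ∑ i, L.φ (c i) • b' i = ∑ l, L.φ ((hb.rho f).mulVec c l) • b' l := by
  rw [Finset.smul_sum]
  simp_rw [smul_comm f, hb.rho_spec f, Finset.smul_sum, smul_smul, ← map_mul]
  rw [Finset.sum_comm]
  refine Finset.sum_congr rfl fun l _ => ?_
  rw [← Finset.sum_smul, ← map_sum]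
  congr 2
  simp only [Matrix.mulVec, dotProduct]
  refine Finset.sum_congr rfl fun i _ => ?_
  rw [mul_comm]

/-- The `Λ`-submodule `𝔞 N` (for the `S`-structure), `𝔞` an ideal of `S = Λ`. -/
def IsSBasis.sub (hb : IsSBasis L b') (𝔞 : Ideal (MvPowerSeries (Fin r) 𝒪)) :
    Submodule (MvPowerSeries (Fin r) 𝒪) L.N where
  carrier := {x | ∃ s : Fin d → MvPowerSeries (Fin r) 𝒪, (∀ i, s i ∈ 𝔞) ∧
    x = ∑ i, L.φ (s i) • b' i}
  zero_mem' := ⟨0, fun _ => 𝔞.zero_mem, by simp⟩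
  add_mem' := by
    rintro x y ⟨s, hs, rfl⟩ ⟨s', hs', rfl⟩
    refine ⟨s + s', fun i => 𝔞.add_mem (hs i) (hs' i), ?_⟩
    simp only [Pi.add_apply, map_add, add_smul, Finset.sum_add_distrib]
  smul_mem' := by
    rintro g x ⟨s, hs, rfl⟩
    refine ⟨(hb.rho g).mulVec s, fun l => ?_, hb.smul_sum g s⟩
    simp only [Matrix.mulVec, dotProduct]
    exact Ideal.sum_mem _ fun i _ => Ideal.mul_mem_left _ _ (hs i)

theorem IsSBasis.mem_sub (hb : IsSBasis L b') (𝔞 : Ideal (MvPowerSeries (Fin r) 𝒪)) (x : L.N) :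
    x ∈ hb.sub 𝔞 ↔ ∃ s : Fin d → MvPowerSeries (Fin r) 𝒪, (∀ i, s i ∈ 𝔞) ∧
      x = ∑ i, L.φ (s i) • b' i := Iff.rfl

/-- The quotient `N / 𝔞 N` is a quotient of `(S/𝔞)^d`. -/
theorem IsSBasis.exists_surjective (hb : IsSBasis L b')
    (𝔞 : Ideal (MvPowerSeries (Fin r) 𝒪)) :
    ∃ Θ : (Fin d → MvPowerSeries (Fin r) 𝒪 ⧸ 𝔞) → L.N ⧸ hb.sub 𝔞, Function.Surjective Θ := by
  refine ⟨fun c => Submodule.Quotient.mk (∑ i, L.φ ((c i).out) • b' i), fun y => ?_⟩
  obtain ⟨x, rfl⟩ := Submodule.Quotient.mk_surjective _ y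
  obtain ⟨c, rfl⟩ := hb.span x
  refine ⟨fun i => Ideal.Quotient.mk 𝔞 (c i), ?_⟩
  rw [Submodule.Quotient.eq, hb.mem_sub]
  refine ⟨fun i => (Ideal.Quotient.mk 𝔞 (c i)).out - c i, fun i => ?_, ?_⟩
  · rw [← Ideal.Quotient.eq]
    exact Quotient.out_eq _
  · simp only [map_sub, sub_smul, Finset.sum_sub_distrib]

section Cont

variable [IsNoetherianRing 𝒪] [Finite (ResidueField 𝒪)]

/-- Uniform continuity of the action: `𝔪^t` maps `N` into `𝔪_S^k N` as soon as
`t ≥ |S/𝔪^k|^d`. -/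
theorem IsSBasis.smul_mem_sub (hb : IsSBasis L b') (k n : ℕ)
    (hn : Nat.card (Fin d → MvPowerSeries (Fin r) 𝒪 ⧸
      maximalIdeal (MvPowerSeries (Fin r) 𝒪) ^ k) ≤ n)
    {f : MvPowerSeries (Fin r) 𝒪} (hf : f ∈ maximalIdeal (MvPowerSeries (Fin r) 𝒪) ^ n)
    (x : L.N) : f • x ∈ hb.sub (maximalIdeal (MvPowerSeries (Fin r) 𝒪) ^ k) := by
  haveI : Finite (MvPowerSeries (Fin r) 𝒪 ⧸ maximalIdeal (MvPowerSeries (Fin r) 𝒪) ^ k) :=
    Fermat.Agent.S53.finite_quotient_maximalIdeal_pow 𝒪 (Fin r) k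
  obtain ⟨Θ, hΘ⟩ := hb.exists_surjective (maximalIdeal (MvPowerSeries (Fin r) 𝒪) ^ k)
  haveI : Finite (L.N ⧸ hb.sub (maximalIdeal (MvPowerSeries (Fin r) 𝒪) ^ k)) :=
    Finite.of_surjective Θ hΘ
  have hcard : Nat.card (L.N ⧸ hb.sub (maximalIdeal (MvPowerSeries (Fin r) 𝒪) ^ k)) ≤ n :=
    (Nat.card_le_card_of_surjective Θ hΘ).trans hn
  have h0 := smul_eq_zero_of_mem_pow_card (A := MvPowerSeries (Fin r) 𝒪) n
    (L.N ⧸ hb.sub (maximalIdeal (MvPowerSeries (Fin r) 𝒪) ^ k)) hcard f hf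
    (Submodule.Quotient.mk x)
  rw [← Submodule.Quotient.mk_smul, Submodule.Quotient.mk_eq_zero] at h0
  exact h0

/-- A patching level with an `S`-basis lifting `m` is framed. -/
theorem IsSBasis.isFramed (hb : IsSBasis L b') {m : Fin d → M} (hπ : ∀ i, L.π (b' i) = m i)
    {t : ℕ → ℕ}
    (ht : ∀ k, Nat.card (Fin d → MvPowerSeries (Fin r) 𝒪 ⧸
      maximalIdeal (MvPowerSeries (Fin r) 𝒪) ^ k) ≤ t k) :
    IsFramed m t J L.φ L.ψ hb.rho where
  ψ_surj := L.ψ_surjective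
  ψ_φ_X := L.ψ_φ_X
  ρ_add f g i j := by
    have h1 : ∑ i, L.φ (hb.rho (f + g) i j) • b' i =
        ∑ i, L.φ (hb.rho f i j + hb.rho g i j) • b' i := by
      rw [← hb.rho_spec, add_smul, hb.rho_spec f, hb.rho_spec g]
      simp only [map_add, add_smul, Finset.sum_add_distrib]
    exact hb.sub_mem (c := fun i => hb.rho (f + g) i j)
      (c' := fun i => hb.rho f i j + hb.rho g i j) h1 i
  ρ_mul f g i j := by
    have h1 : ∑ i, L.φ (hb.rho (f * g) i j) • b' i =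
        ∑ i, L.φ ((hb.rho f * hb.rho g) i j) • b' i := by
      rw [← hb.rho_spec, mul_smul, hb.rho_spec g, hb.smul_sum]
      rfl
    exact hb.sub_mem (c := fun i => hb.rho (f * g) i j)
      (c' := fun i => (hb.rho f * hb.rho g) i j) h1 i
  ρ_φ s i j := by
    classical
    have h1 : ∑ i, L.φ (hb.rho (L.φ s) i j) • b' i =
        ∑ i, L.φ (if i = j then s else 0) • b' i := by
      rw [← hb.rho_spec]
      have h2 : ∀ i, L.φ (if i = j then s else 0) • b' i =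
          if i = j then L.φ s • b' j else 0 := by
        intro i
        by_cases hij : i = j
        · rw [if_pos hij, if_pos hij, hij]
        · rw [if_neg hij, if_neg hij, map_zero, zero_smul]
      simp_rw [h2]
      rw [Finset.sum_ite_eq' Finset.univ j, if_pos (Finset.mem_univ j)]
    exact hb.sub_mem (c := fun i => hb.rho (L.φ s) i j)
      (c' := fun i => if i = j then s else 0) h1 i
  ρ_m f j := by
    have h1 := congrArg L.π (hb.rho_spec f j)
    rw [L.π_smul, hπ, map_sum] at h1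
    rw [h1]
    refine Finset.sum_congr rfl fun i _ => ?_
    rw [L.π_smul, hπ]
    congr 1
    exact algHom_eq_algebraMap_constantCoeff (L.ψ.comp L.φ) (fun i => L.ψ_φ_X i) _
  ρ_cont k f hf i j := by
    have h1 := hb.smul_mem_sub k (t k) (ht k) hf (b' j)
    rw [hb.mem_sub] at h1
    obtain ⟨s, hs, hs'⟩ := h1
    rw [hb.rho_spec f j] at hs'
    have h2 := hb.sub_mem (c := fun i => hb.rho f i j) (c' := s) hs' i
    have h3 : hb.rho f i j = s i + (hb.rho f i j - s i) := by ring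
    rw [h3]
    exact Submodule.add_mem_sup (hs i) h2

end Cont

end

end Fermat.Agent.GB.Patch
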