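import Fermat.Agent.GB.Patch.OfLevel

set_option autoImplicit false
set_option linter.unusedSectionVars false
set_option linter.style.haveILetI false

/-!
# GB / Patch / Rebase : every patching level has an `S`-basis lifting a given `𝒪`-basis of `M`
-/

namespace Fermat.Agent.GB.Patch

open IsLocalRing MvPowerSeries

section OBasis

variable {𝒪 : Type} [CommRing 𝒪] {R : Type} [CommRing R] [Algebra 𝒪 R] {M : Type}
  [AddCommGroup M] [Module R M] {d d' : ℕ}

theorem IsOBasis.eq_of_sum_eq {m : Fin d → M} (hm : IsOBasis 𝒪 (R := R) m) {c c' : Fin d → 𝒪}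
    (h : ∑ i, algebraMap 𝒪 R (c i) • m i = ∑ i, algebraMap 𝒪 R (c' i) • m i) : c = c' := by
  have h1 : ∑ i, algebraMap 𝒪 R ((c - c') i) • m i = 0 := by
    simp only [Pi.sub_apply, map_sub, sub_smul, Finset.sum_sub_distrib]
    rw [h, sub_self]
  funext i
  have := hm.indep _ h1 i
  rwa [Pi.sub_apply, sub_eq_zero] at this

/-- transition matrices between two `𝒪`-bases -/
theorem IsOBasis.exists_transition {m : Fin d → M} {m' : Fin d' → M}
    (hm : IsOBasis 𝒪 (R := R) m) (hm' : IsOBasis 𝒪 (R := R) m') :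
    ∃ (P : Matrix (Fin d') (Fin d) 𝒪) (Q : Matrix (Fin d) (Fin d') 𝒪),
      (∀ j, m j = ∑ i, algebraMap 𝒪 R (P i j) • m' i) ∧ P * Q = 1 ∧ Q * P = 1 := by
  classical
  have h1 : ∀ j, ∃ c : Fin d' → 𝒪, m j = ∑ i, algebraMap 𝒪 R (c i) • m' i := fun j => hm'.span (m j)
  have h2 : ∀ i, ∃ c : Fin d → 𝒪, m' i = ∑ j, algebraMap 𝒪 R (c j) • m j := fun i => hm.span (m' i)
  choose p hp using h1
  choose q hq using h2
  let P : Matrix (Fin d') (Fin d) 𝒪 := Matrix.of fun i j => p j i
  let Q : Matrix (Fin d) (Fin d') 𝒪 := Matrix.of fun j i => q i j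
  have hP : ∀ i j, P i j = p j i := fun _ _ => rfl
  have hQ : ∀ j i, Q j i = q i j := fun _ _ => rfl
  refine ⟨P, Q, hp, ?_, ?_⟩
  · -- `P * Q = 1`, by independence of `m'`
    refine Matrix.ext fun a b => ?_
    have h3 : ∑ i, algebraMap 𝒪 R ((P * Q) i b) • m' i =
        ∑ i, algebraMap 𝒪 R ((1 : Matrix (Fin d') (Fin d') 𝒪) i b) • m' i := by
      have hR : ∑ i, algebraMap 𝒪 R ((1 : Matrix (Fin d') (Fin d') 𝒪) i b) • m' i = m' b := by
        simp [Matrix.one_apply]
      rw [hR]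
      conv_rhs => rw [hq b]
      simp only [Matrix.mul_apply, map_sum, map_mul, Finset.sum_smul, hP, hQ]
      rw [Finset.sum_comm]
      refine Finset.sum_congr rfl fun j _ => ?_
      rw [hp j, Finset.smul_sum]
      refine Finset.sum_congr rfl fun i _ => ?_
      rw [smul_smul, mul_comm]
    exact congrFun (hm'.eq_of_sum_eq h3) a
  · refine Matrix.ext fun a b => ?_
    have h3 : ∑ j, algebraMap 𝒪 R ((Q * P) j b) • m j =
        ∑ j, algebraMap 𝒪 R ((1 : Matrix (Fin d) (Fin d) 𝒪) j b) • m j := by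
      have hR : ∑ j, algebraMap 𝒪 R ((1 : Matrix (Fin d) (Fin d) 𝒪) j b) • m j = m b := by
        simp [Matrix.one_apply]
      rw [hR]
      conv_rhs => rw [hp b]
      simp only [Matrix.mul_apply, map_sum, map_mul, Finset.sum_smul, hP, hQ]
      rw [Finset.sum_comm]
      refine Finset.sum_congr rfl fun i _ => ?_
      rw [hq i, Finset.smul_sum]
      refine Finset.sum_congr rfl fun j _ => ?_
      rw [smul_smul, mul_comm]
    exact congrFun (hm.eq_of_sum_eq h3) a

end OBasis

section Level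

variable {𝒪 : Type} [CommRing 𝒪] [IsLocalRing 𝒪] {r : ℕ}
  {R : Type} [CommRing R] [Algebra 𝒪 R] {M : Type} [AddCommGroup M] [Module R M] {d : ℕ}
  {J : Ideal (MvPowerSeries (Fin r) 𝒪)} (L : Algebra.PatchingLevel 𝒪 r R M J)

theorem isSBasis_b : IsSBasis L L.b := ⟨L.b_span, L.b_rel⟩

theorem psi_phi (c : MvPowerSeries (Fin r) 𝒪) :
    L.ψ (L.φ c) = algebraMap 𝒪 R (constantCoeff c) :=
  algHom_eq_algebraMap_constantCoeff (L.ψ.comp L.φ) (fun i => L.ψ_φ_X i) c

theorem pi_sum_phi_smul {d' : ℕ} (b' : Fin d' → L.N) (c : Fin d' → MvPowerSeries (Fin r) 𝒪) :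
    L.π (∑ i, L.φ (c i) • b' i) = ∑ i, algebraMap 𝒪 R (constantCoeff (c i)) • L.π (b' i) := by
  rw [map_sum]
  refine Finset.sum_congr rfl fun i _ => ?_
  rw [L.π_smul, psi_phi]

/-- the kernel of `π` consists of the combinations with coefficients without constant term -/
theorem ker_pi_le_sub :
    (Ideal.span (Set.range fun i : Fin r => L.φ (X i))) •
      (⊤ : Submodule (MvPowerSeries (Fin r) 𝒪) L.N) ≤
      (isSBasis_b L).sub (RingHom.ker (constantCoeff (σ := Fin r) (R := 𝒪))) := by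
  rw [Submodule.smul_le]
  intro a ha z _
  -- induction on `a`
  refine Submodule.span_induction (p := fun a _ => a • z ∈
    (isSBasis_b L).sub (RingHom.ker (constantCoeff (σ := Fin r) (R := 𝒪)))) ?_ ?_ ?_ ?_ ha
  · rintro _ ⟨j, rfl⟩
    obtain ⟨c, rfl⟩ := L.b_span z
    rw [IsSBasis.mem_sub]
    refine ⟨fun i => X j * c i, fun i => ?_, ?_⟩
    · rw [RingHom.mem_ker, map_mul, constantCoeff_X, zero_mul]
    · rw [Finset.smul_sum]
      refine Finset.sum_congr rfl fun i _ => ?_
      rw [smul_smul, ← map_mul]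
  · rw [zero_smul]
    exact Submodule.zero_mem _
  · intro x y _ _ hx hy
    rw [add_smul]
    exact Submodule.add_mem _ hx hy
  · intro g x _ hx
    rw [smul_eq_mul, mul_smul]
    exact Submodule.smul_mem _ g hx

theorem isOBasis_pi_b (hJ : ∀ f ∈ J, constantCoeff f = 0) :
    IsOBasis 𝒪 (R := R) (fun i => L.π (L.b i)) where
  span y := by
    obtain ⟨x, rfl⟩ := L.π_surjective y
    obtain ⟨c, rfl⟩ := L.b_span x
    exact ⟨fun i => constantCoeff (c i), pi_sum_phi_smul L L.b c⟩
  indep a ha i := by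
    have h1 : L.π (∑ i, L.φ (C (a i)) • L.b i) = 0 := by
      rw [pi_sum_phi_smul]
      simpa using ha
    rw [L.ker_π] at h1
    have h2 := ker_pi_le_sub L h1
    rw [IsSBasis.mem_sub] at h2
    obtain ⟨s, hs, hs'⟩ := h2
    have h3 := (isSBasis_b L).sub_mem (c := fun i => C (a i)) (c' := s) hs' i
    have h4 := hJ _ h3
    have h5 : constantCoeff (s i) = 0 := hs i
    rw [map_sub, constantCoeff_C, h5, sub_zero] at h4
    exact h4

/-- Every patching level has an `S`-basis lifting a given `𝒪`-basis of `M`. -/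
theorem exists_isSBasis_lift (hJ : ∀ f ∈ J, constantCoeff f = 0) {m : Fin d → M}
    (hm : IsOBasis 𝒪 (R := R) m) :
    ∃ b' : Fin d → L.N, IsSBasis L b' ∧ ∀ i, L.π (b' i) = m i := by
  classical
  obtain ⟨P, Q, hP, hPQ, hQP⟩ := hm.exists_transition (isOBasis_pi_b L hJ)
  let PC : Matrix (Fin L.d) (Fin d) (MvPowerSeries (Fin r) 𝒪) := P.map C
  let QC : Matrix (Fin d) (Fin L.d) (MvPowerSeries (Fin r) 𝒪) := Q.map C
  have hPQC : PC * QC = 1 := by
    rw [← Matrix.map_mul, hPQ, Matrix.map_one _ (map_zero _) (map_one _)]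
  have hQPC : QC * PC = 1 := by
    rw [← Matrix.map_mul, hQP, Matrix.map_one _ (map_zero _) (map_one _)]
  let b' : Fin d → L.N := fun j => ∑ i, L.φ (PC i j) • L.b i
  -- the key formula
  have key : ∀ c : Fin d → MvPowerSeries (Fin r) 𝒪,
      ∑ j, L.φ (c j) • b' j = ∑ i, L.φ (PC.mulVec c i) • L.b i := by
    intro c
    simp only [b', Finset.smul_sum, smul_smul, ← map_mul]
    rw [Finset.sum_comm]
    refine Finset.sum_congr rfl fun i _ => ?_
    rw [← Finset.sum_smul, ← map_sum]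
    congr 2
    simp only [Matrix.mulVec, dotProduct]
    refine Finset.sum_congr rfl fun j _ => ?_
    rw [mul_comm]
  refine ⟨b', ⟨fun x => ?_, fun c => ?_⟩, fun j => ?_⟩
  · obtain ⟨c, rfl⟩ := L.b_span x
    refine ⟨QC.mulVec c, ?_⟩
    rw [key, Matrix.mulVec_mulVec, hPQC, Matrix.one_mulVec]
  · rw [key, L.b_rel]
    constructor
    · intro h j
      have h1 : c = QC.mulVec (PC.mulVec c) := by
        rw [Matrix.mulVec_mulVec, hQPC, Matrix.one_mulVec]
      rw [h1]
      simp only [Matrix.mulVec, dotProduct]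
      exact Ideal.sum_mem _ fun i _ => Ideal.mul_mem_left _ _ (h i)
    · intro h i
      simp only [Matrix.mulVec, dotProduct]
      exact Ideal.sum_mem _ fun j _ => Ideal.mul_mem_left _ _ (h j)
  · show L.π (∑ i, L.φ (PC i j) • L.b i) = m j
    rw [pi_sum_phi_smul, hP j]
    refine Finset.sum_congr rfl fun i _ => ?_
    simp [PC]

end Level

end Fermat.Agent.GB.Patch
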